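import Fermat.Agent.S18x.Dict.H7_KumInst
import Fermat.Agent.S18x.IG.H28_HmInst

/-!
# S18 / [IG-FINAL] (helper26): the assembly `H7IG A M K` from its three groups of inputs

`L = ℚ̄`, `A` a valuation subring of `L`, `K` a number field inside `L`,
`O = A.comap (algebraMap K L)` a discrete valuation ring, `F = modularFunctionFieldFullC K M`.

The conjuncts of `Dict.H7.H7IG A M K` are

* (a) the coordinate inputs (uniformiser, `x * x' = 1`, transcendence, finiteness, `x, x' ∈ V`):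
  discharged here from helper29's `coord_inputs` and helper28's `coord2` / `coord3`;
* (b) (SAT-INST): the three saturation statements `H26Sat`;
* (c) (HSM-INST): (SM) on the two charts `H26Hsm`.

`ig_final_of_coord` : `H7IG` for any base coordinate `x = coordM K M x₀ hmem`, `x' = x⁻¹` from
(b) and (c) at one uniformiser;
`ig_final_two_of`, `ig_final_three_of` : the same for the Hauptmoduln of level `2` and `3`;
`ig_final_of` : the case split `p0 = 2 ∨ p0 = 3`.
-/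

set_option autoImplicit false
set_option linter.unusedSectionVars false
set_option linter.style.haveILetI false
set_option synthInstance.maxHeartbeats 400000
set_option maxHeartbeats 1000000

noncomputable section

namespace Fermat.Agent.S18x.Asm

open AlgebraicCurve ModularCurve IntermediateField Polynomial
open Fermat.Agent.S18x.Dict.H20 Fermat.Agent.S18x.Dict.H7
open Fermat.Agent.S18x.Spec.H26

local notation "Lbar" => AlgebraicClosure ℚ

section Props

variable (A : ValuationSubring Lbar) (M : ℕ) [NeZero M] (K : IntermediateField ℚ Lbar)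
  [IsDiscreteValuationRing (A.comap (algebraMap ↥K Lbar))]

/-- **(SAT-INST)**: the three saturation conjuncts of `Dict.H7.H7IG` for the pair of coordinates
`x`, `x'` and the uniformiser `π₀`. -/
def H26Sat (x x' : ↥(modularFunctionFieldFullC ↥K M))
    (π₀ : A.comap (algebraMap ↥K Lbar)) : Prop :=
  (∀ v ∈ gaussValM (A.comap (algebraMap ↥K Lbar)) M,
      algebraMap (A.comap (algebraMap ↥K Lbar)) ↥(modularFunctionFieldFullC ↥K M) π₀ * v ∈
        chart (A.comap (algebraMap ↥K Lbar)) x → v ∈ chart (A.comap (algebraMap ↥K Lbar)) x) ∧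
    (∀ v ∈ gaussValM (A.comap (algebraMap ↥K Lbar)) M,
      algebraMap (A.comap (algebraMap ↥K Lbar)) ↥(modularFunctionFieldFullC ↥K M) π₀ * v ∈
        chart (A.comap (algebraMap ↥K Lbar)) x' → v ∈ chart (A.comap (algebraMap ↥K Lbar)) x') ∧
    (∀ v ∈ gaussValM (A.comap (algebraMap ↥K Lbar)) M,
      algebraMap (A.comap (algebraMap ↥K Lbar)) ↥(modularFunctionFieldFullC ↥K M) π₀ * v ∈
        chart₁₂ (A.comap (algebraMap ↥K Lbar)) x x' →
        v ∈ chart₁₂ (A.comap (algebraMap ↥K Lbar)) x x')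

/-- **(HSM-INST)**: the two (SM) conjuncts of `Dict.H7.H7IG`. -/
def H26Hsm (x x' : ↥(modularFunctionFieldFullC ↥K M))
    (π₀ : A.comap (algebraMap ↥K Lbar)) : Prop :=
  Fermat.Agent.S18x.IG.HSMChart (A.comap (algebraMap ↥K Lbar)) x π₀ ∧
    Fermat.Agent.S18x.IG.HSMChart (A.comap (algebraMap ↥K Lbar)) x' π₀

variable {A M K} in
theorem H26Sat.mk' {x x' : ↥(modularFunctionFieldFullC ↥K M)}
    {π₀ : A.comap (algebraMap ↥K Lbar)}
    (h₁ : ∀ v ∈ gaussValM (A.comap (algebraMap ↥K Lbar)) M,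
      algebraMap (A.comap (algebraMap ↥K Lbar)) ↥(modularFunctionFieldFullC ↥K M) π₀ * v ∈
        chart (A.comap (algebraMap ↥K Lbar)) x → v ∈ chart (A.comap (algebraMap ↥K Lbar)) x)
    (h₂ : ∀ v ∈ gaussValM (A.comap (algebraMap ↥K Lbar)) M,
      algebraMap (A.comap (algebraMap ↥K Lbar)) ↥(modularFunctionFieldFullC ↥K M) π₀ * v ∈
        chart (A.comap (algebraMap ↥K Lbar)) x' → v ∈ chart (A.comap (algebraMap ↥K Lbar)) x')
    (h₁₂ : ∀ v ∈ gaussValM (A.comap (algebraMap ↥K Lbar)) M,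
      algebraMap (A.comap (algebraMap ↥K Lbar)) ↥(modularFunctionFieldFullC ↥K M) π₀ * v ∈
        chart₁₂ (A.comap (algebraMap ↥K Lbar)) x x' →
        v ∈ chart₁₂ (A.comap (algebraMap ↥K Lbar)) x x') :
    H26Sat A M K x x' π₀ :=
  ⟨h₁, h₂, h₁₂⟩

end Props

section Assembly

variable (A : ValuationSubring Lbar) (M : ℕ) [NeZero M] (K : IntermediateField ℚ Lbar)
  [IsDiscreteValuationRing (A.comap (algebraMap ↥K Lbar))]

/-- **`H7IG` from its parts**, for an arbitrary pair of coordinates. -/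
theorem ig_final_of_parts (π₀ : A.comap (algebraMap ↥K Lbar)) (hπ₀ : Irreducible π₀)
    (x x' : ↥(modularFunctionFieldFullC ↥K M)) (hxx' : x * x' = 1)
    (hx : Transcendental (A.comap (algebraMap ↥K Lbar)) x)
    (hfin : H26FinOver (A.comap (algebraMap ↥K Lbar)) x)
    (hxV : x ∈ gaussValM (A.comap (algebraMap ↥K Lbar)) M)
    (hx'V : x' ∈ gaussValM (A.comap (algebraMap ↥K Lbar)) M)
    (hsat : H26Sat A M K x x' π₀) (hsm : H26Hsm A M K x x' π₀) :
    H7IG A M K :=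
  ⟨π₀, hπ₀, x, x', hxx', hx, hfin, hxV, hx'V, hsat.1, hsat.2.1, hsat.2.2, hsm.1, hsm.2⟩

/-- **`H7IG` for a base coordinate with integral `q`-expansion `x₀ = q⁻¹ + …`** (helper29's
coordinate package), from (SAT-INST) and (HSM-INST) at one uniformiser. -/
theorem ig_final_of_coord (x₀ : LaurentSeries ℤ) (hord : x₀.order = -1)
    (hlead : x₀.coeff (-1) = 1)
    (hmem : coeffMap (Int.castRingHom ↥K) x₀ ∈ modularFunctionFieldFullC ↥K M)
    (π₀ : A.comap (algebraMap ↥K Lbar)) (hπ₀ : Irreducible π₀)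
    (hsat : H26Sat A M K (Fermat.Agent.S18x.IG.H29.coordM ↥K M x₀ hmem)
      (Fermat.Agent.S18x.IG.H29.coordM ↥K M x₀ hmem)⁻¹ π₀)
    (hsm : H26Hsm A M K (Fermat.Agent.S18x.IG.H29.coordM ↥K M x₀ hmem)
      (Fermat.Agent.S18x.IG.H29.coordM ↥K M x₀ hmem)⁻¹ π₀) :
    H7IG A M K := by
  obtain ⟨h1, h2, h3, h4, h5⟩ :=
    Fermat.Agent.S18x.IG.H29.coord_inputs (A.comap (algebraMap ↥K Lbar)) M x₀ hmem hord hlead
  exact ig_final_of_parts A M K π₀ hπ₀ _ _ h1 h2 h3 h4 h5 hsat hsm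

/-- **`H7IG` at a level divisible by `2`**, base coordinate the Hauptmodul of level `2`. -/
theorem ig_final_two_of (hM : 2 ∣ M)
    (π₀ : A.comap (algebraMap ↥K Lbar)) (hπ₀ : Irreducible π₀)
    (hsat : H26Sat A M K (Fermat.Agent.S18x.IG.H28.coord2 ↥K M hM)
      (Fermat.Agent.S18x.IG.H28.coord2 ↥K M hM)⁻¹ π₀)
    (hsm : H26Hsm A M K (Fermat.Agent.S18x.IG.H28.coord2 ↥K M hM)
      (Fermat.Agent.S18x.IG.H28.coord2 ↥K M hM)⁻¹ π₀) :
    H7IG A M K :=
  ig_final_of_coord A M K Fermat.Agent.S18x.IG.H28.h2 Fermat.Agent.S18x.IG.H28.order_h2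
    Fermat.Agent.S18x.IG.H28.coeff_h2_neg_one
    (Fermat.Agent.S18x.IG.H28.h2_mem_full ↥K M hM) π₀ hπ₀ hsat hsm

/-- **`H7IG` at a level divisible by `3`**, base coordinate the Hauptmodul of level `3`. -/
theorem ig_final_three_of (hM : 3 ∣ M)
    (π₀ : A.comap (algebraMap ↥K Lbar)) (hπ₀ : Irreducible π₀)
    (hsat : H26Sat A M K (Fermat.Agent.S18x.IG.H28.coord3 ↥K M hM)
      (Fermat.Agent.S18x.IG.H28.coord3 ↥K M hM)⁻¹ π₀)
    (hsm : H26Hsm A M K (Fermat.Agent.S18x.IG.H28.coord3 ↥K M hM)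
      (Fermat.Agent.S18x.IG.H28.coord3 ↥K M hM)⁻¹ π₀) :
    H7IG A M K :=
  ig_final_of_coord A M K Fermat.Agent.S18x.IG.H28.h3 Fermat.Agent.S18x.IG.H28.order_h3
    Fermat.Agent.S18x.IG.H28.coeff_h3_neg_one
    (Fermat.Agent.S18x.IG.H28.h3_mem_full ↥K M hM) π₀ hπ₀ hsat hsm

/-- **[IG-FINAL] with (SAT-INST) and (HSM-INST) as hypotheses**: `H7IG A M K` at every level
`M` divisible by `p0 ∈ {2, 3}`, from the saturation and (SM) statements for the Hauptmodul of
level `p0` and its inverse at every uniformiser. -/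
theorem ig_final_of (p0 : ℕ) (hp0 : p0 = 2 ∨ p0 = 3) (hp0M : p0 ∣ M)
    (h2 : ∀ hM : 2 ∣ M, p0 = 2 → ∀ π₀ : A.comap (algebraMap ↥K Lbar), Irreducible π₀ →
      H26Sat A M K (Fermat.Agent.S18x.IG.H28.coord2 ↥K M hM)
          (Fermat.Agent.S18x.IG.H28.coord2 ↥K M hM)⁻¹ π₀ ∧
        H26Hsm A M K (Fermat.Agent.S18x.IG.H28.coord2 ↥K M hM)
          (Fermat.Agent.S18x.IG.H28.coord2 ↥K M hM)⁻¹ π₀)
    (h3 : ∀ hM : 3 ∣ M, p0 = 3 → ∀ π₀ : A.comap (algebraMap ↥K Lbar), Irreducible π₀ →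
      H26Sat A M K (Fermat.Agent.S18x.IG.H28.coord3 ↥K M hM)
          (Fermat.Agent.S18x.IG.H28.coord3 ↥K M hM)⁻¹ π₀ ∧
        H26Hsm A M K (Fermat.Agent.S18x.IG.H28.coord3 ↥K M hM)
          (Fermat.Agent.S18x.IG.H28.coord3 ↥K M hM)⁻¹ π₀) :
    H7IG A M K := by
  obtain ⟨π₀, hπ₀⟩ :=
    IsDiscreteValuationRing.exists_irreducible (A.comap (algebraMap ↥K Lbar))
  rcases hp0 with h | h
  · have hM : 2 ∣ M := h ▸ hp0M
    obtain ⟨hsat, hsm⟩ := h2 hM h π₀ hπ₀
    exact ig_final_two_of A M K hM π₀ hπ₀ hsat hsm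
  · have hM : 3 ∣ M := h ▸ hp0M
    obtain ⟨hsat, hsm⟩ := h3 hM h π₀ hπ₀
    exact ig_final_three_of A M K hM π₀ hπ₀ hsat hsm

end Assembly

end Fermat.Agent.S18x.Asm
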