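import Fermat.Agent.S18x.Asm.H18_Final
import Fermat.Agent.S18x.Asm.H26_IgFinal
import Fermat.Agent.S18x.IG.H24_HsmInst
import Fermat.Agent.S18x.IG.H10_SatInst
import Fermat.Agent.S18x.IG.H5_HorInst

/-!
# S18: the instance of `Dict.H7.H7IG` and the hypothesis-free statement (helper18, chief)

* `h18_ig` : `Dict.H7.H7IG A M K` at every level `M` divisible by `p0 ∈ {2, 3}`, `ℓ ≠ p0`,
  `ℓ ∤ M`, for every number field `K ⊆ ℚ̄` (saturation: helper10; (SM): helper24 from the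
  principle (*), the vertical inputs of helper10 and the horizontal inputs of helper5);
* `h18_kumVPrime` : (KUM) at such a level;
* `h18_final` : the frozen statement S18.
-/

set_option autoImplicit false
set_option linter.unusedSectionVars false
set_option linter.style.haveILetI false
set_option synthInstance.maxHeartbeats 400000
set_option maxHeartbeats 1000000

open ModularCurve AlgebraicCurve Polynomial

noncomputable section

namespace Fermat.Agent.S18x.Asm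

local notation "Lbar" => AlgebraicClosure ℚ

/-- (SAT-INST) + (HSM-INST) at level `2`. -/
theorem h18_parts_two (A : ValuationSubring Lbar) {ℓ : ℕ} (hℓ : ℓ.Prime)
    (hA : A.LiesOverPrime ℓ) (M : ℕ) [NeZero M] (hℓM : ¬ ℓ ∣ M)
    (K : IntermediateField ℚ Lbar) [FiniteDimensional ℚ K]
    [IsDiscreteValuationRing (A.comap (algebraMap ↥K Lbar))] (hM : 2 ∣ M) (hℓ2 : ℓ ≠ 2)
    (π₀ : A.comap (algebraMap ↥K Lbar)) (hπ₀ : Irreducible π₀) :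
    H26Sat A M K (Fermat.Agent.S18x.IG.H28.coord2 ↥K M hM)
        (Fermat.Agent.S18x.IG.H28.coord2 ↥K M hM)⁻¹ π₀ ∧
      H26Hsm A M K (Fermat.Agent.S18x.IG.H28.coord2 ↥K M hM)
        (Fermat.Agent.S18x.IG.H28.coord2 ↥K M hM)⁻¹ π₀ := by
  haveI : IsScalarTower (A.comap (algebraMap ↥K Lbar)) ↥K ↥(modularFunctionFieldFullC ↥K M) :=
    IsScalarTower.of_algebraMap_eq (fun c => rfl)
  haveI : Fact ℓ.Prime := ⟨hℓ⟩
  haveI : CharP (IsLocalRing.ResidueField (A.comap (algebraMap ↥K Lbar))) ℓ :=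
    Fermat.Agent.S18x.Dict.H23.h23_charP_residueField (K := ↥K) A hℓ hA
  haveI : Algebra.IsIntegral ↥K Lbar := Fermat.Agent.S18x.Dict.H22.isIntegral_intermediate K
  obtain ⟨hs1, hs2, hs12⟩ :=
    Fermat.Agent.S18x.IG.H10.h10_sat_coord2 (A.comap (algebraMap ↥K Lbar)) M hM π₀ hπ₀ ℓ hℓM
  have hu64 : IsUnit (64 : A.comap (algebraMap ↥K Lbar)) :=
    Fermat.Agent.S18x.IG.H21.h21_isUnit_64
      (Fermat.Agent.S18x.IG.H21.h21_isUnit_two (K := ↥K) A hℓ hA hℓ2)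
  have hc₂ : (64 : A.comap (algebraMap ↥K Lbar)) *
      (-Fermat.Agent.S18x.IG.H21.h21_inv 64 hu64) + 1 = 0 := by
    rw [mul_neg, Fermat.Agent.S18x.IG.H21.h21_mul_inv]
    ring
  refine ⟨⟨hs1, hs2, hs12⟩, ?_⟩
  exact Fermat.Agent.S18x.IG.h24_hSM_two A hℓ hA M K hM hℓ2 π₀ hπ₀ hs1 hs2
    (Fermat.Agent.S18x.IG.H5.h5_hred_two (A.comap (algebraMap ↥K Lbar)) M hM π₀ hπ₀ _
      (Set.mem_insert _ _) (Set.mem_insert_of_mem _ (Set.mem_singleton _)))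
    (Fermat.Agent.S18x.IG.H5.h5_hred_two_inv (A.comap (algebraMap ↥K Lbar)) M hM π₀ hπ₀ _
      (Set.mem_insert _ _) _ hc₂ (Set.mem_insert_of_mem _ (Set.mem_singleton _)))

/-- (SAT-INST) + (HSM-INST) at level `3`. -/
theorem h18_parts_three (A : ValuationSubring Lbar) {ℓ : ℕ} (hℓ : ℓ.Prime)
    (hA : A.LiesOverPrime ℓ) (M : ℕ) [NeZero M] (hℓM : ¬ ℓ ∣ M)
    (K : IntermediateField ℚ Lbar) [FiniteDimensional ℚ K]
    [IsDiscreteValuationRing (A.comap (algebraMap ↥K Lbar))] (hM : 3 ∣ M) (hℓ3 : ℓ ≠ 3)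
    (π₀ : A.comap (algebraMap ↥K Lbar)) (hπ₀ : Irreducible π₀) :
    H26Sat A M K (Fermat.Agent.S18x.IG.H28.coord3 ↥K M hM)
        (Fermat.Agent.S18x.IG.H28.coord3 ↥K M hM)⁻¹ π₀ ∧
      H26Hsm A M K (Fermat.Agent.S18x.IG.H28.coord3 ↥K M hM)
        (Fermat.Agent.S18x.IG.H28.coord3 ↥K M hM)⁻¹ π₀ := by
  haveI : IsScalarTower (A.comap (algebraMap ↥K Lbar)) ↥K ↥(modularFunctionFieldFullC ↥K M) :=
    IsScalarTower.of_algebraMap_eq (fun c => rfl)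
  haveI : Fact ℓ.Prime := ⟨hℓ⟩
  haveI : CharP (IsLocalRing.ResidueField (A.comap (algebraMap ↥K Lbar))) ℓ :=
    Fermat.Agent.S18x.Dict.H23.h23_charP_residueField (K := ↥K) A hℓ hA
  haveI : Algebra.IsIntegral ↥K Lbar := Fermat.Agent.S18x.Dict.H22.isIntegral_intermediate K
  obtain ⟨hs1, hs2, hs12⟩ :=
    Fermat.Agent.S18x.IG.H10.h10_sat_coord3 (A.comap (algebraMap ↥K Lbar)) M hM π₀ hπ₀ ℓ hℓM
  have hu27 : IsUnit (27 : A.comap (algebraMap ↥K Lbar)) :=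
    Fermat.Agent.S18x.IG.H21.h21_isUnit_27
      (Fermat.Agent.S18x.IG.H21.h21_isUnit_three (K := ↥K) A hℓ hA hℓ3)
  have hc₂ : (27 : A.comap (algebraMap ↥K Lbar)) *
      (-Fermat.Agent.S18x.IG.H21.h21_inv 27 hu27) + 1 = 0 := by
    rw [mul_neg, Fermat.Agent.S18x.IG.H21.h21_mul_inv]
    ring
  refine ⟨⟨hs1, hs2, hs12⟩, ?_⟩
  exact Fermat.Agent.S18x.IG.h24_hSM_three A hℓ hA M K hM hℓ3 π₀ hπ₀ hs1 hs2
    (Fermat.Agent.S18x.IG.H5.h5_hred_three (A.comap (algebraMap ↥K Lbar)) M hM π₀ hπ₀ _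
      (Set.mem_insert _ _) (Set.mem_insert_of_mem _ (Set.mem_singleton _)))
    (Fermat.Agent.S18x.IG.H5.h5_hred_three_inv (A.comap (algebraMap ↥K Lbar)) M hM π₀ hπ₀ _
      (Set.mem_insert _ _) _ hc₂ (Set.mem_insert_of_mem _ (Set.mem_singleton _)))

/-- **[IG-FINAL]**: `Dict.H7.H7IG A M K`, hypothesis-free. -/
theorem h18_ig (A : ValuationSubring Lbar) {ℓ : ℕ} (hℓ : ℓ.Prime) (hA : A.LiesOverPrime ℓ)
    (M : ℕ) [NeZero M] (p0 : ℕ) (hp0 : p0 = 2 ∨ p0 = 3) (hp0M : p0 ∣ M) (hℓp0 : ℓ ≠ p0)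
    (hℓM : ¬ ℓ ∣ M) (K : IntermediateField ℚ Lbar) (hK : FiniteDimensional ℚ K)
    [IsDiscreteValuationRing (A.comap (algebraMap ↥K Lbar))] :
    Fermat.Agent.S18x.Dict.H7.H7IG A M K :=
  ig_final_of A M K p0 hp0 hp0M
    (fun hM h π₀ hπ₀ => h18_parts_two A hℓ hA M hℓM K hM (h ▸ hℓp0) π₀ hπ₀)
    (fun hM h π₀ hπ₀ => h18_parts_three A hℓ hA M hℓM K hM (h ▸ hℓp0) π₀ hπ₀)

/-- **(KUM) at prime exponents at a Hauptmodul level**, hypothesis-free. -/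
theorem h18_kumVPrime (A : ValuationSubring Lbar) {ℓ : ℕ} (hℓ : ℓ.Prime)
    (hA : A.LiesOverPrime ℓ) (M : ℕ) [NeZero M] (p0 : ℕ) (hp0 : p0 = 2 ∨ p0 = 3)
    (hp0M : p0 ∣ M) (hℓp0 : ℓ ≠ p0) (hℓM : ¬ ℓ ∣ M) :
    Fermat.Agent.S18x.Kum.StKumVPrime A M ℓ :=
  Fermat.Agent.S18x.Dict.H7.h7_stKumVPrime_of_forall A hℓ hA M
    (fun K hK _ => h18_ig A hℓ hA M p0 hp0 hp0M hℓp0 hℓM K hK)

/-- **S18**: a point of `J₀(N)` killed by some `m` prime to `ℓ` whose reduction modulo `ℓ`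
vanishes is zero. -/
theorem h18_final (N : ℕ) [NeZero N] {ℓ : ℕ} [Fact ℓ.Prime] (hℓN : ¬ ℓ ∣ N)
    (A : ValuationSubring (AlgebraicClosure ℚ)) (hA : A.LiesOverPrime ℓ)
    (h : ModularCurve.ReductionInputsModL A N) (m : ℕ) (hm : ¬ ℓ ∣ m) (z : ModularCurve.JZero N)
    (hmz : m • z = 0) (hz : ModularCurve.reductionModL A N z = 0) : z = 0 := by
  haveI : NeZero (h18_base ℓ * N) := h18_level_neZero ℓ N
  have hℓ : ℓ.Prime := Fact.out
  exact final_of_ig N hℓN A hA (h18_base ℓ * N) (Dvd.intro_left _ rfl)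
    (h18_not_dvd_level hℓ hℓN)
    (fun K hK _ => h18_ig A hℓ hA (h18_base ℓ * N) (h18_base ℓ) (h18_base_mem ℓ)
      (Dvd.intro _ rfl) (h18_base_ne ℓ) (h18_not_dvd_level hℓ hℓN) K hK)
    h m hm z hmz hz

end Fermat.Agent.S18x.Asm
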