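import Mathlib
import Fermat.Prelude.Def_ModularCurve_ReductionModL
import Fermat.Prelude.Def_EllipticCurve_FrobeniusTrace

/-!
# S18 (reduction of prime-to-`ℓ` torsion of `J₀(N)` is injective): the top interfaces (helper18)

Blueprint: findings #163.  Frozen statement: `z : JZero N`, `m • z = 0`, `ℓ ∤ m`,
`h : ReductionInputsModL A N`, `reductionModL A N z = 0`; claim `z = 0`.

Notation: `L = ℚ̄`, `F = modularFunctionFieldBar N ⊆ L((q))`, `k` the residue field of the valuation
ring `A` of `L`, `F̄ = modularFunctionFieldFullC k N ⊆ k((q))`.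

* `StKummer` (the core, independent of the hypothesis `h`): if `Y₁, Y₂ ∈ A((q)) ∩ F` have the same
  non-zero reduction in `F̄` and `div (Y₁ / Y₂) = m D`, `ℓ ∤ m`, then `D` is principal;
* `StLift`: every non-zero element of `F̄` is the reduction of an element of `A((q)) ∩ F`;
* `StConst`: an element of `F̄` with trivial divisor is a constant;
* `StDiv`: every non-zero element of `F` has a divisor (finitely many zeros and poles).

`result_of` (in `Asm/H18_Top.lean`): `StKummer → StLift → StConst → StDiv →` the frozen statement.
-/

set_option autoImplicit false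
set_option synthInstance.maxHeartbeats 400000
set_option maxHeartbeats 1000000

open HahnSeries IntermediateField AlgebraicCurve ModularCurve

noncomputable section

namespace Fermat.Agent.S18x.Asm

variable (A : ValuationSubring (AlgebraicClosure ℚ)) (N : ℕ) [NeZero N]

/-- **[KUMMER] the core**: a divisor `D` with `m D = div (Y₁ / Y₂)`, where `Y₁, Y₂` are integral
`q`-series of modular functions with the same non-zero reduction, is principal (`ℓ ∤ m`). -/
def StKummer (ℓ : ℕ) : Prop :=
  ∀ m : ℕ, ¬ ℓ ∣ m → ∀ (Y₁ Y₂ : LaurentSeries A)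
    (h₁ : coeffMap A.subtype Y₁ ∈ modularFunctionFieldBar N)
    (h₂ : coeffMap A.subtype Y₂ ∈ modularFunctionFieldBar N),
    coeffMap (IsLocalRing.residue A) Y₁ ∈
        modularFunctionFieldFullC (IsLocalRing.ResidueField A) N →
    coeffMap (IsLocalRing.residue A) Y₁ = coeffMap (IsLocalRing.residue A) Y₂ →
    coeffMap (IsLocalRing.residue A) Y₁ ≠ 0 →
    ∀ D : Divisor (AlgebraicClosure ℚ) (modularFunctionFieldBar N),
      (∀ P : Place (AlgebraicClosure ℚ) (modularFunctionFieldBar N),
        (m : ℤ) * D P =
          P.ord (⟨coeffMap A.subtype Y₁, h₁⟩ : modularFunctionFieldBar N) -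
            P.ord (⟨coeffMap A.subtype Y₂, h₂⟩ : modularFunctionFieldBar N)) →
      Divisor.IsPrincipal D

/-- **[LIFT]**: every non-zero element of `F̄` is the reduction of an integral `q`-series of a
modular function. -/
def StLift : Prop :=
  ∀ g : LaurentSeries (IsLocalRing.ResidueField A),
    g ∈ modularFunctionFieldFullC (IsLocalRing.ResidueField A) N → g ≠ 0 →
    ∃ y : LaurentSeries A, coeffMap A.subtype y ∈ modularFunctionFieldBar N ∧
      coeffMap (IsLocalRing.residue A) y = g

/-- **[CONST]**: an element of `F̄` without zeros and poles is a constant. -/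
def StConst : Prop :=
  ∀ g : modularFunctionFieldFullC (IsLocalRing.ResidueField A) N, g ≠ 0 →
    (∀ Q : Place (IsLocalRing.ResidueField A)
        (modularFunctionFieldFullC (IsLocalRing.ResidueField A) N), Q.ord g = 0) →
    ∃ c : IsLocalRing.ResidueField A,
      algebraMap (IsLocalRing.ResidueField A)
        (modularFunctionFieldFullC (IsLocalRing.ResidueField A) N) c = g

/-- **[DIV]**: every non-zero modular function has a divisor. -/
def StDiv : Prop :=
  ∀ f : modularFunctionFieldBar N, f ≠ 0 →
    ∃ D : Divisor (AlgebraicClosure ℚ) (modularFunctionFieldBar N),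
      ∀ P : Place (AlgebraicClosure ℚ) (modularFunctionFieldBar N), D P = P.ord f

end Fermat.Agent.S18x.Asm
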