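import Fermat.Agent.S18x.Asm.H24_Adapt
import Fermat.Agent.S18x.E.H29_StConst

/-!
# S18: the frozen statement from the Kummer criterion at PRIME exponents only (helper12)

The leaves (LIFT) (`E.H12.stLift`, `stLiftUnit`) and (CONST) (`E.H29.stConst`) are plugged in.
What remains is the Kummer criterion, and only at prime exponents `p ≠ ℓ`:

* `StKumAt A N m` : (KUM) at the single exponent `m`, divisor form (helper24's spelling:
  `y` integral, `red y = 1`, `m ∣ ord_P y` for all `P` gives `u ≠ 0` with `ord_P y = m ord_P u`);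
* `StKumPowAt A N m` : the power form `y = c * u ^ m`; `stKumAt_of_pow`;
* `h12_core_at`, `h12_inj_at` : step [E] of helper24 (`h24_core`, `h24_inj_of_reduction`) uses
  (KUM) only at the exponent `m` itself;
* `h12_inj_of_prime` : injectivity of the reduction on the `m`-torsion for every `m` prime to `ℓ`
  from (KUM) at the primes `p ≠ ℓ` (induction on `m` in the group `JZero N`);
* `h12_result_of_prime` : the frozen S18 statement from `∀ p prime, p ≠ ℓ → StKumAt A N p`;
* `h12_result_of_prime_pow` : the same from the power form.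
-/

set_option autoImplicit false
set_option synthInstance.maxHeartbeats 400000
set_option maxHeartbeats 1000000

open ModularCurve AlgebraicCurve HahnSeries
open Fermat.Agent.S18x.Asm.H24

noncomputable section

namespace Fermat.Agent.S18x.Asm.H12

variable (A : ValuationSubring (AlgebraicClosure ℚ)) (N : ℕ)

/-- **(KUM) at the exponent `m`**, divisor form. -/
def StKumAt (m : ℕ) : Prop :=
  ∀ (y : LaurentSeries A) (hy : IsInt A N y), red A y = 1 →
    (∀ P : Place (AlgebraicClosure ℚ) (modularFunctionFieldBar N),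
      (m : ℤ) ∣ P.ord (toBar A N hy)) →
    ∃ u : modularFunctionFieldBar N, u ≠ 0 ∧
      ∀ P : Place (AlgebraicClosure ℚ) (modularFunctionFieldBar N),
        P.ord (toBar A N hy) = (m : ℤ) * P.ord u

/-- **(KUM) at the exponent `m`**, power form: `y` is a constant times an `m`-th power. -/
def StKumPowAt (m : ℕ) : Prop :=
  ∀ (y : LaurentSeries A) (hy : IsInt A N y), red A y = 1 →
    (∀ P : Place (AlgebraicClosure ℚ) (modularFunctionFieldBar N),
      (m : ℤ) ∣ P.ord (toBar A N hy)) →
    ∃ (u : modularFunctionFieldBar N) (c : AlgebraicClosure ℚ), c ≠ 0 ∧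
      toBar A N hy = algebraMap (AlgebraicClosure ℚ) (modularFunctionFieldBar N) c * u ^ m

variable {A N}

theorem stKumAt_of_pow {m : ℕ} (h : StKumPowAt A N m) : StKumAt A N m := by
  intro y hy hred hdvd
  obtain ⟨u, c, hc, hyu⟩ := h y hy hred hdvd
  have hy0 : toBar A N hy ≠ 0 := h24_toBar_ne_zero A N hy (by rw [hred]; exact one_ne_zero)
  have hcF : algebraMap (AlgebraicClosure ℚ) (modularFunctionFieldBar N) c ≠ 0 := by
    rw [Ne, map_eq_zero_iff _ (algebraMap (AlgebraicClosure ℚ)
      (modularFunctionFieldBar N)).injective]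
    exact hc
  have hum : u ^ m ≠ 0 := by
    intro h0
    apply hy0
    rw [hyu, h0, mul_zero]
  rcases Nat.eq_zero_or_pos m with hm | hm
  · subst hm
    refine ⟨1, one_ne_zero, fun P => ?_⟩
    rw [hyu, pow_zero, mul_one, h24_ord_algebraMap P c hc]
    simp
  · have hu0 : u ≠ 0 := by
      intro h0
      apply hum
      rw [h0, zero_pow (Nat.pos_iff_ne_zero.mp hm)]
    refine ⟨u, hu0, fun P => ?_⟩
    rw [hyu, P.ord_mul hcF hum, h24_ord_algebraMap P c hc, zero_add, h24_ord_pow]

variable (A N)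

/-- **(E), core, at the exponent `m`** (helper24's `h24_core`; (KUM) is used at `m` only). -/
theorem h12_core_at [NeZero N] (ℓ : ℕ) [Fact ℓ.Prime] (m : ℕ) (hm0 : m ≠ 0)
    (hKum : StKumAt A N m) (hLift : H24.StLift A N ℓ) (hConst : H24.StConst A N ℓ)
    (hℓN : ¬ ℓ ∣ N) (hA : A.LiesOverPrime ℓ)
    (r : Place (AlgebraicClosure ℚ) (modularFunctionFieldBar N) →
      Place (IsLocalRing.ResidueField A) (modularFunctionFieldFullC (IsLocalRing.ResidueField A) N))
    (hr : IsPlaceReductionAlong A (IsLocalRing.residue A) N r)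
    (hgen : PrincipalGeneratedByIntegral A (IsLocalRing.residue A) N)
    (D : Divisor (AlgebraicClosure ℚ) (modularFunctionFieldBar N))
    (hmD : m • D ∈
      Divisor.principal (K := AlgebraicClosure ℚ) (F := modularFunctionFieldBar N))
    (hrD : Finsupp.mapDomain r D ∈
      Divisor.principal (K := IsLocalRing.ResidueField A)
        (F := modularFunctionFieldFullC (IsLocalRing.ResidueField A) N)) :
    D ∈ Divisor.principal (K := AlgebraicClosure ℚ) (F := modularFunctionFieldBar N) := by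
  obtain ⟨gbar, hg0, hgD⟩ := hrD
  obtain ⟨a, b, ha, hb, Da, Db, hak, hane, hbk, hbne, hDa, hDb, hEq⟩ :=
    h24_closure_good A N _ (hgen hmD)
  have hmap : ∀ Q : Place (IsLocalRing.ResidueField A)
      (modularFunctionFieldFullC (IsLocalRing.ResidueField A) N), (m : ℤ) * Q.ord gbar =
      Q.ord (⟨red A a, hak⟩ : modularFunctionFieldFullC (IsLocalRing.ResidueField A) N) -
      Q.ord (⟨red A b, hbk⟩ : modularFunctionFieldFullC (IsLocalRing.ResidueField A) N) := by
    intro Q
    have h1 : Finsupp.mapDomain r (m • D) = Finsupp.mapDomain r (Da - Db) := by rw [hEq]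
    rw [Finsupp.mapDomain_smul, Finsupp.mapDomain_sub] at h1
    have h2 := congrArg (fun E => E Q) h1
    simp only [Finsupp.smul_apply, Finsupp.sub_apply, nsmul_eq_mul] at h2
    rw [hgD Q, hr.2 a ha hak hane Da hDa Q, hr.2 b hb hbk hbne Db hDb Q] at h2
    exact h2
  obtain ⟨c, c', hcc, hred_a⟩ := h24_step_const A N ℓ hConst hℓN hA m
    ⟨red A a, hak⟩ ⟨red A b, hbk⟩ gbar (fun h0 => hane (congrArg Subtype.val h0))
    (fun h0 => hbne (congrArg Subtype.val h0)) hg0 hmap
  obtain ⟨b', b'', hb', hb'', hbb, hredb'⟩ := hLift hℓN hA (red A b) hbk hbne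
  obtain ⟨y0, y0', hy0, hy0', hyy, hredy0⟩ :=
    hLift hℓN hA (gbar : LaurentSeries (IsLocalRing.ResidueField A)) gbar.2
      (fun h0 => hg0 (Subtype.ext h0))
  obtain ⟨n, rfl⟩ := Nat.exists_eq_succ_of_ne_zero hm0
  obtain ⟨y, hy, hredy, hordy⟩ := h24_step_y A N n a b b' b'' y0 y0' c c' ha hb hb'' hy0'
    hcc hbb hyy hredb' hane hbne (by rw [hredy0]; exact hred_a)
  have hDP : ∀ P : Place (AlgebraicClosure ℚ) (modularFunctionFieldBar N),
      ((n + 1 : ℕ) : ℤ) * D P = P.ord (toBar A N ha) - P.ord (toBar A N hb) := by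
    intro P
    have h2 := congrArg (fun E => E P) hEq
    simp only [Finsupp.smul_apply, Finsupp.sub_apply, nsmul_eq_mul] at h2
    rw [hDa P, hDb P] at h2
    exact h2
  have hordy' : ∀ P : Place (AlgebraicClosure ℚ) (modularFunctionFieldBar N),
      P.ord (toBar A N hy) = ((n + 1 : ℕ) : ℤ) *
        (D P + P.ord (toBar A N hb) + P.ord (toBar A N hb'') + P.ord (toBar A N hy0')) := by
    intro P
    rw [hordy P]
    have := hDP P
    push_cast at this ⊢
    linear_combination -this
  obtain ⟨u, hu0, hu⟩ := hKum y hy hredy (fun P => ⟨_, hordy' P⟩)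
  have hb''ne : toBar A N hb'' ≠ 0 := by
    apply h24_toBar_ne_zero
    intro h0
    have hB : red A b' * red A b'' = 1 := by rw [← h24_red_mul, hbb, h24_red_one]
    rw [h0, mul_zero] at hB
    exact zero_ne_one hB
  have hy0'ne : toBar A N hy0' ≠ 0 := by
    apply h24_toBar_ne_zero
    intro h0
    have hG : red A y0 * red A y0' = 1 := by rw [← h24_red_mul, hyy, h24_red_one]
    rw [h0, mul_zero] at hG
    exact zero_ne_one hG
  have hbne' : toBar A N hb ≠ 0 := h24_toBar_ne_zero A N hb hbne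
  refine ⟨u * (toBar A N hb * toBar A N hb'' * toBar A N hy0')⁻¹,
    mul_ne_zero hu0 (inv_ne_zero (mul_ne_zero (mul_ne_zero hbne' hb''ne) hy0'ne)), ?_⟩
  intro P
  rw [P.ord_mul hu0 (inv_ne_zero (mul_ne_zero (mul_ne_zero hbne' hb''ne) hy0'ne)),
    P.ord_inv, P.ord_mul (mul_ne_zero hbne' hb''ne) hy0'ne, P.ord_mul hbne' hb''ne]
  have h1 := hordy' P
  rw [hu P] at h1
  have h2 : ((n + 1 : ℕ) : ℤ) ≠ 0 := by exact_mod_cast Nat.succ_ne_zero n
  have h3 := mul_left_cancel₀ h2 h1
  rw [h3]; ring

/-- **(E) at the exponent `m`** for an arbitrary place reduction `r`. -/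
theorem h12_inj_at [NeZero N] (ℓ : ℕ) [Fact ℓ.Prime] (m : ℕ) (hm0 : m ≠ 0)
    (hKum : StKumAt A N m) (hLift : H24.StLift A N ℓ) (hConst : H24.StConst A N ℓ)
    (hℓN : ¬ ℓ ∣ N) (hA : A.LiesOverPrime ℓ)
    (r : Place (AlgebraicClosure ℚ) (modularFunctionFieldBar N) →
      Place (IsLocalRing.ResidueField A) (modularFunctionFieldFullC (IsLocalRing.ResidueField A) N))
    (hr : IsPlaceReductionAlong A (IsLocalRing.residue A) N r)
    (hgen : PrincipalGeneratedByIntegral A (IsLocalRing.residue A) N)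
    (z : ModularCurve.JZero N) (hmz : m • z = 0)
    (hz : reductionPic0Along r hr hgen z = 0) : z = 0 := by
  obtain ⟨D, rfl⟩ := Pic0.mk_surjective z
  have hmD : (m • (D : Divisor (AlgebraicClosure ℚ) (modularFunctionFieldBar N))) ∈
      Divisor.principal (K := AlgebraicClosure ℚ) (F := modularFunctionFieldBar N) := by
    have h1 : Pic0.mk (m • D) = 0 := by
      rw [← hmz]; rfl
    have h2 := (QuotientAddGroup.eq_zero_iff (m • D)).mp h1
    rw [AddSubgroup.mem_addSubgroupOf] at h2
    simpa using h2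
  have hrD : Finsupp.mapDomain r
      (D : Divisor (AlgebraicClosure ℚ) (modularFunctionFieldBar N)) ∈
      Divisor.principal (K := IsLocalRing.ResidueField A)
        (F := modularFunctionFieldFullC (IsLocalRing.ResidueField A) N) := by
    rw [reductionPic0Along_mk] at hz
    have h2 := (QuotientAddGroup.eq_zero_iff _).mp hz
    rw [AddSubgroup.mem_addSubgroupOf] at h2
    simpa using h2
  have hprin := h12_core_at A N ℓ m hm0 hKum hLift hConst hℓN hA r hr hgen _ hmD hrD
  exact (QuotientAddGroup.eq_zero_iff D).mpr (by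
    rw [AddSubgroup.mem_addSubgroupOf]; exact hprin)

/-- **From prime exponents to all exponents**: the reduction is injective on the `m`-torsion for
every `m` prime to `ℓ` as soon as (KUM) holds at every prime `p ≠ ℓ`. -/
theorem h12_inj_of_prime [NeZero N] (ℓ : ℕ) [Fact ℓ.Prime]
    (hKum : ∀ p : ℕ, p.Prime → p ≠ ℓ → StKumAt A N p)
    (hLift : H24.StLift A N ℓ) (hConst : H24.StConst A N ℓ)
    (hℓN : ¬ ℓ ∣ N) (hA : A.LiesOverPrime ℓ)
    (r : Place (AlgebraicClosure ℚ) (modularFunctionFieldBar N) →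
      Place (IsLocalRing.ResidueField A) (modularFunctionFieldFullC (IsLocalRing.ResidueField A) N))
    (hr : IsPlaceReductionAlong A (IsLocalRing.residue A) N r)
    (hgen : PrincipalGeneratedByIntegral A (IsLocalRing.residue A) N)
    (m : ℕ) (hm : ¬ ℓ ∣ m) (z : ModularCurve.JZero N) (hmz : m • z = 0)
    (hz : reductionPic0Along r hr hgen z = 0) : z = 0 := by
  induction m using Nat.strong_induction_on generalizing z with
  | _ m ih =>
    rcases Nat.lt_or_ge m 2 with h2 | h2
    · -- `m = 0` is excluded, `m = 1` is trivial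
      have hm0 : m ≠ 0 := fun h0 => hm (h0 ▸ dvd_zero ℓ)
      have hm1 : m = 1 := by omega
      rw [hm1, one_smul] at hmz
      exact hmz
    · -- `m = p * m'`
      have hm1 : m ≠ 1 := by omega
      obtain ⟨p, hp, m', rfl⟩ := Nat.exists_prime_and_dvd hm1
      have hpℓ : p ≠ ℓ := fun h => hm (h ▸ dvd_mul_right p m')
      have hm'ℓ : ¬ ℓ ∣ m' := fun h => hm (Dvd.dvd.mul_left h p)
      have hm'0 : m' ≠ 0 := fun h0 => hm'ℓ (h0 ▸ dvd_zero ℓ)
      have hlt : m' < p * m' := by
        have := hp.two_le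
        nlinarith [Nat.pos_of_ne_zero hm'0]
      have hz' : m' • z = 0 := by
        apply h12_inj_at A N ℓ p hp.ne_zero (hKum p hp hpℓ) hLift hConst hℓN hA r hr hgen
        · rw [smul_smul]; exact hmz
        · rw [map_nsmul, hz, smul_zero]
      exact ih m' hlt hm'ℓ z hz' hz

/-- **S18 from (KUM) at the primes `p ≠ ℓ`**, in the shape of the frozen statement; the leaves
(LIFT) and (CONST) are plugged in. -/
theorem h12_result_of_prime [NeZero N] {ℓ : ℕ} [Fact ℓ.Prime] (hℓN : ¬ ℓ ∣ N)
    (hA : A.LiesOverPrime ℓ)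
    (hKum : ∀ p : ℕ, p.Prime → p ≠ ℓ → StKumAt A N p)
    (h : ModularCurve.ReductionInputsModL A N) (m : ℕ) (hm : ¬ ℓ ∣ m) (z : ModularCurve.JZero N)
    (hmz : m • z = 0) (hz : ModularCurve.reductionModL A N z = 0) : z = 0 := by
  refine h12_inj_of_prime A N ℓ hKum (h24_stLift A N ℓ)
    (h24_stConst_of A N ℓ (Fermat.Agent.S18x.E.H29.stConst A N)) hℓN hA (placeReductionModL h)
    (isPlaceReductionModL_placeReductionModL h) h.choose_spec.2 m hm z hmz ?_
  have h1 : reductionModL A N = reductionPic0Along (placeReductionModL h)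
      (isPlaceReductionModL_placeReductionModL h) h.choose_spec.2 := reductionAlong_eq h
  rw [← h1]
  exact hz

/-- **S18 from (KUM) in power form at the primes `p ≠ ℓ`**. -/
theorem h12_result_of_prime_pow [NeZero N] {ℓ : ℕ} [Fact ℓ.Prime] (hℓN : ¬ ℓ ∣ N)
    (hA : A.LiesOverPrime ℓ)
    (hKum : ∀ p : ℕ, p.Prime → p ≠ ℓ → StKumPowAt A N p)
    (h : ModularCurve.ReductionInputsModL A N) (m : ℕ) (hm : ¬ ℓ ∣ m) (z : ModularCurve.JZero N)
    (hmz : m • z = 0) (hz : ModularCurve.reductionModL A N z = 0) : z = 0 :=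
  h12_result_of_prime A N hℓN hA (fun p hp hpℓ => stKumAt_of_pow (hKum p hp hpℓ)) h m hm z hmz hz

end Fermat.Agent.S18x.Asm.H12
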