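import Fermat.Agent.S18x.Kum.H12_Wire
import Fermat.Agent.S18x.Desc.H19_Asc
import Fermat.Agent.S18x.Dict.H7_KumInst

/-!
# S18: the final wiring (helper18, chief)

* `h18_base ℓ` : the auxiliary base level (`2` for odd `ℓ`, `3` for `ℓ = 2`);
* `final_of_kumV` : the frozen statement S18 at level `N` from (KUM) at prime exponents at an
  auxiliary level `M` with `N ∣ M`, `ℓ ∤ M`;
* `final_of_ig` : the frozen statement S18 at level `N` from the [IG] inputs `Dict.H7.H7IG` at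
  an auxiliary level `M`, over all number fields inside `ℚ̄`.
-/

set_option autoImplicit false
set_option synthInstance.maxHeartbeats 400000
set_option maxHeartbeats 1000000

open ModularCurve AlgebraicCurve HahnSeries

noncomputable section

namespace Fermat.Agent.S18x.Asm

/-- The auxiliary base level: `2` for odd `ℓ`, `3` for `ℓ = 2`. -/
def h18_base (ℓ : ℕ) : ℕ := if ℓ = 2 then 3 else 2

theorem h18_base_prime (ℓ : ℕ) : (h18_base ℓ).Prime := by
  unfold h18_base; split_ifs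
  · exact Nat.prime_three
  · exact Nat.prime_two

theorem h18_base_mem (ℓ : ℕ) : h18_base ℓ = 2 ∨ h18_base ℓ = 3 := by
  unfold h18_base; split_ifs
  · exact Or.inr rfl
  · exact Or.inl rfl

theorem h18_base_ne (ℓ : ℕ) : ℓ ≠ h18_base ℓ := by
  unfold h18_base; split_ifs with h2
  · rw [h2]; decide
  · exact h2

theorem h18_not_dvd_base {ℓ : ℕ} (hℓ : ℓ.Prime) : ¬ ℓ ∣ h18_base ℓ := fun hd =>
  h18_base_ne ℓ ((Nat.prime_dvd_prime_iff_eq hℓ (h18_base_prime ℓ)).mp hd)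

theorem h18_not_dvd_level {ℓ : ℕ} (hℓ : ℓ.Prime) {N : ℕ} (hℓN : ¬ ℓ ∣ N) :
    ¬ ℓ ∣ h18_base ℓ * N := fun hd =>
  (hℓ.dvd_mul.mp hd).elim (h18_not_dvd_base hℓ) hℓN

theorem h18_level_neZero (ℓ N : ℕ) [NeZero N] : NeZero (h18_base ℓ * N) :=
  ⟨Nat.mul_ne_zero (h18_base_prime ℓ).ne_zero (NeZero.ne N)⟩

/-- **S18 from (KUM) at an auxiliary level.** -/
theorem final_of_kumV (N : ℕ) [NeZero N] {ℓ : ℕ} [Fact ℓ.Prime] (hℓN : ¬ ℓ ∣ N)
    (A : ValuationSubring (AlgebraicClosure ℚ)) (hA : A.LiesOverPrime ℓ)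
    (M : ℕ) [NeZero M] (hNM : N ∣ M) (hℓM : ¬ ℓ ∣ M)
    (hK : Fermat.Agent.S18x.Kum.StKumVPrime A M ℓ)
    (h : ModularCurve.ReductionInputsModL A N) (m : ℕ) (hm : ¬ ℓ ∣ m) (z : ModularCurve.JZero N)
    (hmz : m • z = 0) (hz : ModularCurve.reductionModL A N z = 0) : z = 0 :=
  Fermat.Agent.S18x.Kum.H12.h12_result_of_kumVPrime A N hℓN hA
    (Fermat.Agent.S18x.Desc.H19.h19_level_prime A (Fact.out : ℓ.Prime) hA hNM hℓM hK)
    h m hm z hmz hz

/-- **S18 from the [IG] inputs at an auxiliary level.** -/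
theorem final_of_ig (N : ℕ) [NeZero N] {ℓ : ℕ} [Fact ℓ.Prime] (hℓN : ¬ ℓ ∣ N)
    (A : ValuationSubring (AlgebraicClosure ℚ)) (hA : A.LiesOverPrime ℓ)
    (M : ℕ) [NeZero M] (hNM : N ∣ M) (hℓM : ¬ ℓ ∣ M)
    (hIG : ∀ K : IntermediateField ℚ (AlgebraicClosure ℚ), FiniteDimensional ℚ K →
      ∀ _ : IsDiscreteValuationRing (A.comap (algebraMap ↥K (AlgebraicClosure ℚ))),
        Fermat.Agent.S18x.Dict.H7.H7IG A M K)
    (h : ModularCurve.ReductionInputsModL A N) (m : ℕ) (hm : ¬ ℓ ∣ m) (z : ModularCurve.JZero N)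
    (hmz : m • z = 0) (hz : ModularCurve.reductionModL A N z = 0) : z = 0 :=
  final_of_kumV N hℓN A hA M hNM hℓM
    (Fermat.Agent.S18x.Dict.H7.h7_stKumVPrime_of_forall A (Fact.out : ℓ.Prime) hA M hIG)
    h m hm z hmz hz

end Fermat.Agent.S18x.Asm
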