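import Fermat.Agent.S18x.Asm.Defs

/-!
# S18: the top assembly `StKummer → StLift → StConst → StDiv →` frozen statement (helper18)
-/

set_option autoImplicit false
set_option synthInstance.maxHeartbeats 400000
set_option maxHeartbeats 1000000

open HahnSeries IntermediateField AlgebraicCurve ModularCurve

noncomputable section

namespace Fermat.Agent.S18x.Asm

/-- The order of a constant at a place is `0`. -/
theorem h18_ord_const {K F : Type*} [Field K] [Field F] [Algebra K F] (P : Place K F) (c : K) :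
    P.ord (algebraMap K F c) = 0 := by
  rcases eq_or_ne c 0 with rfl | hc
  · simp [Place.ord_zero]
  · have h1 : algebraMap K F c ∈ P.toValuationSubring := P.algebraMap_mem' c
    have h2 : algebraMap K F c⁻¹ ∈ P.toValuationSubring := P.algebraMap_mem' c⁻¹
    have hu : IsUnit (⟨algebraMap K F c, h1⟩ : P.toValuationSubring) := by
      refine isUnit_iff_exists_inv.mpr ⟨⟨algebraMap K F c⁻¹, h2⟩, ?_⟩
      apply Subtype.ext
      show algebraMap K F c * algebraMap K F c⁻¹ = 1
      rw [← map_mul, mul_inv_cancel₀ hc, map_one]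
    have := P.ord_coe_unit hu.unit
    simpa using this

variable (A : ValuationSubring (AlgebraicClosure ℚ)) (N : ℕ) [NeZero N]

/-- Data attached to a divisor in the subgroup generated by the integral principal divisors. -/
def H18Good (r : Place (AlgebraicClosure ℚ) (modularFunctionFieldBar N) →
      Place (IsLocalRing.ResidueField A) (modularFunctionFieldFullC (IsLocalRing.ResidueField A) N))
    (X : Divisor (AlgebraicClosure ℚ) (modularFunctionFieldBar N)) : Prop :=
  ∃ (Y₁ Y₂ : LaurentSeries A)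
    (h₁ : coeffMap A.subtype Y₁ ∈ modularFunctionFieldBar N)
    (h₂ : coeffMap A.subtype Y₂ ∈ modularFunctionFieldBar N)
    (k₁ : coeffMap (IsLocalRing.residue A) Y₁ ∈
      modularFunctionFieldFullC (IsLocalRing.ResidueField A) N)
    (k₂ : coeffMap (IsLocalRing.residue A) Y₂ ∈
      modularFunctionFieldFullC (IsLocalRing.ResidueField A) N),
    coeffMap (IsLocalRing.residue A) Y₁ ≠ 0 ∧ coeffMap (IsLocalRing.residue A) Y₂ ≠ 0 ∧
    (∀ P, X P = P.ord (⟨_, h₁⟩ : modularFunctionFieldBar N) -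
      P.ord (⟨_, h₂⟩ : modularFunctionFieldBar N)) ∧
    (∀ Q, Finsupp.mapDomain r X Q =
      Q.ord (⟨_, k₁⟩ : modularFunctionFieldFullC (IsLocalRing.ResidueField A) N) -
      Q.ord (⟨_, k₂⟩ : modularFunctionFieldFullC (IsLocalRing.ResidueField A) N))


theorem h18_algebraMap_eq_single {K : Type*} [Field K] (c : K) :
    algebraMap K (LaurentSeries K) c = HahnSeries.single 0 c := by
  have h1 : algebraMap K (PowerSeries K) c = PowerSeries.C c := by simp
  rw [HahnSeries.algebraMap_apply', h1, HahnSeries.ofPowerSeries_C]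
  rfl

omit [NeZero N] in
theorem h18_coeffMap_subtype_injective :
    Function.Injective (coeffMap (A.subtype)) := by
  intro x y hxy
  ext n
  have := congrArg (fun z => z.coeff n) hxy
  simp only [coeffMap_coeff] at this
  exact this

omit [NeZero N] in
theorem h18_ne_zero_of_residue_ne_zero {Y : LaurentSeries A}
    (h : coeffMap (IsLocalRing.residue A) Y ≠ 0) : coeffMap A.subtype Y ≠ 0 := by
  intro h0
  apply h
  have : Y = 0 := h18_coeffMap_subtype_injective A (by rw [h0, map_zero])
  rw [this, map_zero]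

variable {A N}

omit [NeZero N] in
theorem h18_good_of_mem_closure
    {r : Place (AlgebraicClosure ℚ) (modularFunctionFieldBar N) →
      Place (IsLocalRing.ResidueField A) (modularFunctionFieldFullC (IsLocalRing.ResidueField A) N)}
    (hr : IsPlaceReductionAlong A (IsLocalRing.residue A) N r)
    {X : Divisor (AlgebraicClosure ℚ) (modularFunctionFieldBar N)}
    (hX : X ∈ AddSubgroup.closure (integralPrincipalDivisors A (IsLocalRing.residue A) N)) :
    H18Good A N r X := by
  have one₁ : coeffMap A.subtype (1 : LaurentSeries A) ∈ modularFunctionFieldBar N := by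
    rw [map_one]; exact one_mem _
  have one₂ : coeffMap (IsLocalRing.residue A) (1 : LaurentSeries A) ∈
      modularFunctionFieldFullC (IsLocalRing.ResidueField A) N := by
    rw [map_one]; exact one_mem _
  have one₃ : coeffMap (IsLocalRing.residue A) (1 : LaurentSeries A) ≠ 0 := by
    rw [map_one]; exact one_ne_zero
  have e₁ : (⟨coeffMap A.subtype (1 : LaurentSeries A), one₁⟩ : modularFunctionFieldBar N) = 1 :=
    Subtype.ext (map_one _)
  have e₂ : (⟨coeffMap (IsLocalRing.residue A) (1 : LaurentSeries A), one₂⟩ :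
      modularFunctionFieldFullC (IsLocalRing.ResidueField A) N) = 1 :=
    Subtype.ext (map_one _)
  induction hX using AddSubgroup.closure_induction with
  | mem E hE =>
    obtain ⟨y, hy, hyk, hne, hDy⟩ := hE
    refine ⟨y, 1, hy, one₁, hyk, one₂, hne, one₃, fun P => ?_, fun Q => ?_⟩
    · rw [e₁, Place.ord_one, sub_zero]; exact hDy P
    · rw [e₂, Place.ord_one, sub_zero]; exact hr.2 y hy hyk hne E hDy Q
  | zero =>
    refine ⟨1, 1, one₁, one₁, one₂, one₂, one₃, one₃, fun P => ?_, fun Q => ?_⟩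
    · simp
    · simp
  | add E E' _ _ hE hE' =>
    obtain ⟨Y₁, Y₂, h₁, h₂, k₁, k₂, n₁, n₂, hP, hQ⟩ := hE
    obtain ⟨Y₁', Y₂', h₁', h₂', k₁', k₂', n₁', n₂', hP', hQ'⟩ := hE'
    have m₁ : coeffMap A.subtype (Y₁ * Y₁') ∈ modularFunctionFieldBar N := by
      rw [map_mul]; exact mul_mem h₁ h₁'
    have m₂ : coeffMap A.subtype (Y₂ * Y₂') ∈ modularFunctionFieldBar N := by
      rw [map_mul]; exact mul_mem h₂ h₂'
    have q₁ : coeffMap (IsLocalRing.residue A) (Y₁ * Y₁') ∈
        modularFunctionFieldFullC (IsLocalRing.ResidueField A) N := by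
      rw [map_mul]; exact mul_mem k₁ k₁'
    have q₂ : coeffMap (IsLocalRing.residue A) (Y₂ * Y₂') ∈
        modularFunctionFieldFullC (IsLocalRing.ResidueField A) N := by
      rw [map_mul]; exact mul_mem k₂ k₂'
    refine ⟨Y₁ * Y₁', Y₂ * Y₂', m₁, m₂, q₁, q₂, ?_, ?_, fun P => ?_, fun Q => ?_⟩
    · rw [map_mul]; exact mul_ne_zero n₁ n₁'
    · rw [map_mul]; exact mul_ne_zero n₂ n₂'
    · have a₁ : (⟨_, m₁⟩ : modularFunctionFieldBar N) = ⟨_, h₁⟩ * ⟨_, h₁'⟩ :=
        Subtype.ext (map_mul _ _ _)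
      have a₂ : (⟨_, m₂⟩ : modularFunctionFieldBar N) = ⟨_, h₂⟩ * ⟨_, h₂'⟩ :=
        Subtype.ext (map_mul _ _ _)
      have z₁ : (⟨_, h₁⟩ : modularFunctionFieldBar N) ≠ 0 := fun h =>
        h18_ne_zero_of_residue_ne_zero A n₁ (congrArg Subtype.val h)
      have z₁' : (⟨_, h₁'⟩ : modularFunctionFieldBar N) ≠ 0 := fun h =>
        h18_ne_zero_of_residue_ne_zero A n₁' (congrArg Subtype.val h)
      have z₂ : (⟨_, h₂⟩ : modularFunctionFieldBar N) ≠ 0 := fun h =>
        h18_ne_zero_of_residue_ne_zero A n₂ (congrArg Subtype.val h)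
      have z₂' : (⟨_, h₂'⟩ : modularFunctionFieldBar N) ≠ 0 := fun h =>
        h18_ne_zero_of_residue_ne_zero A n₂' (congrArg Subtype.val h)
      rw [a₁, a₂, P.ord_mul z₁ z₁', P.ord_mul z₂ z₂', Finsupp.add_apply, hP P, hP' P]
      ring
    · have a₁ : (⟨_, q₁⟩ : modularFunctionFieldFullC (IsLocalRing.ResidueField A) N) =
          ⟨_, k₁⟩ * ⟨_, k₁'⟩ := Subtype.ext (map_mul _ _ _)
      have a₂ : (⟨_, q₂⟩ : modularFunctionFieldFullC (IsLocalRing.ResidueField A) N) =
          ⟨_, k₂⟩ * ⟨_, k₂'⟩ := Subtype.ext (map_mul _ _ _)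
      have z₁ : (⟨_, k₁⟩ : modularFunctionFieldFullC (IsLocalRing.ResidueField A) N) ≠ 0 :=
        fun h => n₁ (congrArg Subtype.val h)
      have z₁' : (⟨_, k₁'⟩ : modularFunctionFieldFullC (IsLocalRing.ResidueField A) N) ≠ 0 :=
        fun h => n₁' (congrArg Subtype.val h)
      have z₂ : (⟨_, k₂⟩ : modularFunctionFieldFullC (IsLocalRing.ResidueField A) N) ≠ 0 :=
        fun h => n₂ (congrArg Subtype.val h)
      have z₂' : (⟨_, k₂'⟩ : modularFunctionFieldFullC (IsLocalRing.ResidueField A) N) ≠ 0 :=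
        fun h => n₂' (congrArg Subtype.val h)
      rw [a₁, a₂, Q.ord_mul z₁ z₁', Q.ord_mul z₂ z₂', Finsupp.mapDomain_add, Finsupp.add_apply,
        hQ Q, hQ' Q]
      ring
  | neg E _ hE =>
    obtain ⟨Y₁, Y₂, h₁, h₂, k₁, k₂, n₁, n₂, hP, hQ⟩ := hE
    refine ⟨Y₂, Y₁, h₂, h₁, k₂, k₁, n₂, n₁, fun P => ?_, fun Q => ?_⟩
    · rw [Finsupp.neg_apply, hP P]; ring
    · have : Finsupp.mapDomain r (-E) = -Finsupp.mapDomain r E := by
        rw [← Finsupp.mapDomain.addMonoidHom_apply, map_neg, Finsupp.mapDomain.addMonoidHom_apply]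
      rw [this, Finsupp.neg_apply, hQ Q]; ring


/-- **The top assembly of S18.** -/
theorem result_of {ℓ : ℕ} (hK : StKummer A N ℓ) (hL : StLift A N) (hC : StConst A N)
    (hD : StDiv N) (h : ReductionInputsModL A N) (m : ℕ) (hm : ¬ ℓ ∣ m) (z : JZero N)
    (hmz : m • z = 0) (hz : reductionModL A N z = 0) : z = 0 := by
  obtain ⟨D, rfl⟩ := Pic0.mk_surjective z
  have hr := isPlaceReductionModL_placeReductionModL h
  have hgen : PrincipalGeneratedByIntegral A (IsLocalRing.residue A) N := h.choose_spec.2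
  set r := placeReductionModL h with hrdef
  -- the reduction of `D` is principal
  rw [reductionModL_mk h D] at hz
  have hz' : Finsupp.mapDomain r (D : Divisor (AlgebraicClosure ℚ) (modularFunctionFieldBar N)) ∈
      Divisor.principal (K := IsLocalRing.ResidueField A)
        (F := modularFunctionFieldFullC (IsLocalRing.ResidueField A) N) := by
    have := (QuotientAddGroup.eq_zero_iff _).mp hz
    simpa [AddSubgroup.mem_addSubgroupOf] using this
  obtain ⟨g, hg0, hg⟩ := hz'
  -- lift `g`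
  obtain ⟨y₀, hy₀F, hy₀⟩ := hL (g : LaurentSeries (IsLocalRing.ResidueField A)) g.2
    (fun h0 => hg0 (Subtype.ext h0))
  have hy₀k : coeffMap (IsLocalRing.residue A) y₀ ∈
      modularFunctionFieldFullC (IsLocalRing.ResidueField A) N := by rw [hy₀]; exact g.2
  have hy₀ne : coeffMap (IsLocalRing.residue A) y₀ ≠ 0 := by
    rw [hy₀]; exact fun h0 => hg0 (Subtype.ext h0)
  have hy₀F0 : (⟨coeffMap A.subtype y₀, hy₀F⟩ : modularFunctionFieldBar N) ≠ 0 := fun h0 =>
    h18_ne_zero_of_residue_ne_zero A hy₀ne (congrArg Subtype.val h0)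
  obtain ⟨E₀, hE₀⟩ := hD ⟨coeffMap A.subtype y₀, hy₀F⟩ hy₀F0
  have hgy : (⟨coeffMap (IsLocalRing.residue A) y₀, hy₀k⟩ :
      modularFunctionFieldFullC (IsLocalRing.ResidueField A) N) = g := Subtype.ext hy₀
  have hrE₀ : ∀ Q, Finsupp.mapDomain r E₀ Q = Q.ord g := fun Q => by
    rw [← hgy]; exact hr.2 y₀ hy₀F hy₀k hy₀ne E₀ hE₀ Q
  -- `m • D` is principal
  have hmD : m • (D : Divisor (AlgebraicClosure ℚ) (modularFunctionFieldBar N)) ∈
      Divisor.principal (K := AlgebraicClosure ℚ) (F := modularFunctionFieldBar N) := by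
    have h1 : Pic0.mk (m • D) = (0 : Pic0 (AlgebraicClosure ℚ) (modularFunctionFieldBar N)) := by
      rw [← hmz]; rfl
    have := (QuotientAddGroup.eq_zero_iff _).mp h1
    simpa [AddSubgroup.mem_addSubgroupOf] using this
  have hE₀p : E₀ ∈ Divisor.principal (K := AlgebraicClosure ℚ) (F := modularFunctionFieldBar N) :=
    ⟨_, hy₀F0, hE₀⟩
  set D' : Divisor (AlgebraicClosure ℚ) (modularFunctionFieldBar N) :=
    (D : Divisor (AlgebraicClosure ℚ) (modularFunctionFieldBar N)) - E₀ with hD'
  have hmD' : m • D' ∈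
      Divisor.principal (K := AlgebraicClosure ℚ) (F := modularFunctionFieldBar N) := by
    rw [hD', smul_sub]
    exact sub_mem hmD (nsmul_mem hE₀p m)
  have hrD' : Finsupp.mapDomain r D' = 0 := by
    have : Finsupp.mapDomain r D' = Finsupp.mapDomain r
        (D : Divisor (AlgebraicClosure ℚ) (modularFunctionFieldBar N)) - Finsupp.mapDomain r E₀ := by
      rw [hD', ← Finsupp.mapDomain.addMonoidHom_apply, map_sub,
        Finsupp.mapDomain.addMonoidHom_apply, Finsupp.mapDomain.addMonoidHom_apply]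
    rw [this]
    ext Q
    rw [Finsupp.sub_apply, hg Q, hrE₀ Q]
    simp
  obtain ⟨Y₁, Y₂, h₁, h₂, k₁, k₂, n₁, n₂, hP, hQ⟩ := h18_good_of_mem_closure hr (hgen hmD')
  -- the reduction of `Y₁ / Y₂` is a constant
  have hrm : Finsupp.mapDomain r (m • D') = 0 := by
    rw [← Finsupp.mapDomain.addMonoidHom_apply, map_nsmul, Finsupp.mapDomain.addMonoidHom_apply,
      hrD', smul_zero]
  have z₁ : (⟨_, k₁⟩ : modularFunctionFieldFullC (IsLocalRing.ResidueField A) N) ≠ 0 :=
    fun h => n₁ (congrArg Subtype.val h)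
  have z₂ : (⟨_, k₂⟩ : modularFunctionFieldFullC (IsLocalRing.ResidueField A) N) ≠ 0 :=
    fun h => n₂ (congrArg Subtype.val h)
  obtain ⟨c, hc⟩ := hC ((⟨_, k₁⟩ : modularFunctionFieldFullC (IsLocalRing.ResidueField A) N) *
      (⟨_, k₂⟩ : modularFunctionFieldFullC (IsLocalRing.ResidueField A) N)⁻¹)
    (mul_ne_zero z₁ (inv_ne_zero z₂)) (fun Q => by
      rw [Q.ord_mul z₁ (inv_ne_zero z₂), Q.ord_inv]
      have := hQ Q
      rw [hrm] at this
      simp only [Finsupp.coe_zero, Pi.zero_apply] at this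
      linarith)
  have hc0 : c ≠ 0 := by
    rintro rfl
    rw [map_zero] at hc
    exact mul_ne_zero z₁ (inv_ne_zero z₂) hc.symm
  obtain ⟨ct, hct⟩ := IsLocalRing.residue_surjective (R := A) c
  -- the corrected denominator
  set Y₂' : LaurentSeries A := HahnSeries.C ct * Y₂ with hY₂'
  have hY₂'F : coeffMap A.subtype Y₂' ∈ modularFunctionFieldBar N := by
    rw [hY₂', map_mul]
    refine mul_mem ?_ h₂
    have : coeffMap A.subtype (HahnSeries.C ct) =
        algebraMap (AlgebraicClosure ℚ) (LaurentSeries (AlgebraicClosure ℚ)) (ct : AlgebraicClosure ℚ) := by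
      rw [HahnSeries.C_apply, coeffMap_single, h18_algebraMap_eq_single]
      rfl
    rw [this]
    exact (modularFunctionFieldBar N).algebraMap_mem _
  have hred : coeffMap (IsLocalRing.residue A) Y₁ = coeffMap (IsLocalRing.residue A) Y₂' := by
    have e1 : (⟨_, k₁⟩ : modularFunctionFieldFullC (IsLocalRing.ResidueField A) N) =
        algebraMap (IsLocalRing.ResidueField A)
          (modularFunctionFieldFullC (IsLocalRing.ResidueField A) N) c * ⟨_, k₂⟩ := by
      rw [hc, mul_assoc, inv_mul_cancel₀ z₂, mul_one]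
    have e2 := congrArg Subtype.val e1
    have e3 : coeffMap (IsLocalRing.residue A) Y₁ =
        algebraMap (IsLocalRing.ResidueField A) (LaurentSeries (IsLocalRing.ResidueField A)) c *
          coeffMap (IsLocalRing.residue A) Y₂ := e2
    rw [e3, hY₂', map_mul, HahnSeries.C_apply, coeffMap_single, h18_algebraMap_eq_single, hct]
  have hct0 : (ct : AlgebraicClosure ℚ) ≠ 0 := by
    intro h0
    apply hc0
    have : ct = 0 := Subtype.ext h0
    rw [← hct, this, map_zero]
  have hord : ∀ P : Place (AlgebraicClosure ℚ) (modularFunctionFieldBar N),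
      (m : ℤ) * D' P = P.ord (⟨coeffMap A.subtype Y₁, h₁⟩ : modularFunctionFieldBar N) -
        P.ord (⟨coeffMap A.subtype Y₂', hY₂'F⟩ : modularFunctionFieldBar N) := by
    intro P
    have e1 : (⟨coeffMap A.subtype Y₂', hY₂'F⟩ : modularFunctionFieldBar N) =
        algebraMap (AlgebraicClosure ℚ) (modularFunctionFieldBar N) (ct : AlgebraicClosure ℚ) *
          ⟨coeffMap A.subtype Y₂, h₂⟩ := by
      apply Subtype.ext
      show coeffMap A.subtype Y₂' = algebraMap (AlgebraicClosure ℚ)
        (LaurentSeries (AlgebraicClosure ℚ)) (ct : AlgebraicClosure ℚ) * coeffMap A.subtype Y₂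
      rw [hY₂', map_mul, HahnSeries.C_apply, coeffMap_single, h18_algebraMap_eq_single]
      rfl
    have z₂F : (⟨coeffMap A.subtype Y₂, h₂⟩ : modularFunctionFieldBar N) ≠ 0 := fun h0 =>
      h18_ne_zero_of_residue_ne_zero A n₂ (congrArg Subtype.val h0)
    have zc : algebraMap (AlgebraicClosure ℚ) (modularFunctionFieldBar N)
        (ct : AlgebraicClosure ℚ) ≠ 0 := by
      rw [Ne, map_eq_zero_iff _ (algebraMap (AlgebraicClosure ℚ)
        (modularFunctionFieldBar N)).injective]
      exact hct0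
    rw [e1, P.ord_mul zc z₂F, h18_ord_const, zero_add, ← hP P, Finsupp.smul_apply, nsmul_eq_mul]
  have hD'p : Divisor.IsPrincipal D' := hK m hm Y₁ Y₂' h₁ hY₂'F k₁ hred n₁ D' hord
  -- conclusion
  have hDp : (D : Divisor (AlgebraicClosure ℚ) (modularFunctionFieldBar N)) ∈
      Divisor.principal (K := AlgebraicClosure ℚ) (F := modularFunctionFieldBar N) := by
    have : (D : Divisor (AlgebraicClosure ℚ) (modularFunctionFieldBar N)) = D' + E₀ := by
      rw [hD']; abel
    rw [this]
    exact add_mem hD'p hE₀p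
  exact (QuotientAddGroup.eq_zero_iff _).mpr (by simpa [AddSubgroup.mem_addSubgroupOf] using hDp)

end Fermat.Agent.S18x.Asm
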