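import Fermat.Agent.S18x.Asm.H24_Defs

/-!
# S18: step [E] (Kummer reduction) and the top wiring (helper24)

`stTop : StTop A N ℓ` and `result_of : StKum → StLift → StConst → <frozen S18 statement>`.

Proof of [E]: `z = [D]`, `m D` principal, `r_* D = div gbar`.  By `PrincipalGeneratedByIntegral`,
`m D = div a - div b` with `a`, `b` integral with nonzero reductions in `Fk`; applying `r_*`,
`abar / (bbar gbar^m)` has trivial divisor, hence is a constant `cbar` (CONST); with lifts
`b' b'' = 1`, `red b' = bbar`, `y0 y0' = 1`, `red y0 = gbar` (LIFT) the element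
`y = c⁻¹ a b^(m-1) b''^m y0'^m` is integral, `red y = 1`, and
`div y = m (D + div (b b'' y0'))`; (KUM) gives `u` with `div y = m div u`, so
`D = div (u / (b b'' y0'))`.
-/

set_option autoImplicit false
set_option synthInstance.maxHeartbeats 400000

open ModularCurve AlgebraicCurve HahnSeries

noncomputable section

namespace Fermat.Agent.S18x.Asm.H24

section General

variable {K F : Type*} [Field K] [Field F] [Algebra K F]

theorem h24_ord_algebraMap (P : Place K F) (c : K) (hc : c ≠ 0) :
    P.ord (algebraMap K F c) = 0 := by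
  have h1 := P.algebraMap_mem' c
  have h2 := P.algebraMap_mem' c⁻¹
  let u : P.toValuationSubringˣ :=
    ⟨⟨algebraMap K F c, h1⟩, ⟨algebraMap K F c⁻¹, h2⟩,
      by ext; simp [hc], by ext; simp [hc]⟩
  exact P.ord_coe_unit u

theorem h24_ord_pow (P : Place K F) (f : F) (n : ℕ) : P.ord (f ^ n) = n * P.ord f := by
  have := P.ord_zpow f n
  simpa using this

end General

variable (A : ValuationSubring (AlgebraicClosure ℚ)) (N : ℕ)

theorem h24_isInt_one : IsInt A N (1 : LaurentSeries A) := by
  unfold IsInt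
  rw [map_one]
  exact one_mem _

theorem h24_isInt_mul {y y' : LaurentSeries A} (hy : IsInt A N y) (hy' : IsInt A N y') :
    IsInt A N (y * y') := by
  unfold IsInt at *
  rw [map_mul]
  exact mul_mem hy hy'

theorem h24_isInt_pow {y : LaurentSeries A} (hy : IsInt A N y) (n : ℕ) :
    IsInt A N (y ^ n) := by
  unfold IsInt at *
  rw [map_pow]
  exact pow_mem hy n

theorem h24_isInt_single (c : A) : IsInt A N (HahnSeries.single (0 : ℤ) c) := by
  unfold IsInt
  rw [coeffMap_single]
  have := (modularFunctionFieldBar N).algebraMap_mem (c : AlgebraicClosure ℚ)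
  rwa [algebraMap_laurentSeries_eq_single] at this

theorem h24_red_mul (y y' : LaurentSeries A) : red A (y * y') = red A y * red A y' :=
  map_mul _ _ _

theorem h24_red_pow (y : LaurentSeries A) (n : ℕ) : red A (y ^ n) = red A y ^ n :=
  map_pow _ _ _

theorem h24_red_one : red A (1 : LaurentSeries A) = 1 := map_one _

theorem h24_coeffMap_subtype_injective :
    Function.Injective
      (coeffMap A.subtype : LaurentSeries A → LaurentSeries (AlgebraicClosure ℚ)) := by
  intro x y hxy
  ext k
  have := congrArg (fun z => z.coeff k) hxy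
  simp only [coeffMap_coeff] at this
  exact this

theorem h24_toBar_ne_zero {y : LaurentSeries A} (hy : IsInt A N y) (h : red A y ≠ 0) :
    toBar A N hy ≠ 0 := by
  intro h0
  apply h
  have h1 : coeffMap A.subtype y = 0 := congrArg Subtype.val h0
  have h2 : y = 0 := h24_coeffMap_subtype_injective A (by rw [h1, map_zero])
  rw [h2]; exact map_zero _

theorem h24_toBar_mul {y y' : LaurentSeries A} (hy : IsInt A N y) (hy' : IsInt A N y') :
    toBar A N (h24_isInt_mul A N hy hy') = toBar A N hy * toBar A N hy' :=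
  Subtype.ext (map_mul _ _ _)

theorem h24_toBar_pow {y : LaurentSeries A} (hy : IsInt A N y) (n : ℕ) :
    toBar A N (h24_isInt_pow A N hy n) = toBar A N hy ^ n :=
  Subtype.ext (map_pow _ _ _)

theorem h24_toBar_one : toBar A N (h24_isInt_one A N) = 1 :=
  Subtype.ext (map_one _)

theorem h24_toBar_single (c : A) :
    toBar A N (h24_isInt_single A N c) =
      algebraMap (AlgebraicClosure ℚ) (modularFunctionFieldBar N) (c : AlgebraicClosure ℚ) := by
  apply Subtype.ext
  show coeffMap A.subtype (HahnSeries.single (0 : ℤ) c) = _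
  rw [coeffMap_single]
  exact (algebraMap_laurentSeries_eq_single _ _).symm

/-- Divisors in the closure of the integral principal divisors are differences of divisors of
integral elements with nonzero reduction in `Fk`. -/
theorem h24_closure_good
    (E : Divisor (AlgebraicClosure ℚ) (modularFunctionFieldBar N))
    (hE : E ∈ AddSubgroup.closure (integralPrincipalDivisors A (IsLocalRing.residue A) N)) :
    ∃ (a b : LaurentSeries A) (ha : IsInt A N a) (hb : IsInt A N b)
      (Da Db : Divisor (AlgebraicClosure ℚ) (modularFunctionFieldBar N)),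
      red A a ∈ modularFunctionFieldFullC (IsLocalRing.ResidueField A) N ∧ red A a ≠ 0 ∧
      red A b ∈ modularFunctionFieldFullC (IsLocalRing.ResidueField A) N ∧ red A b ≠ 0 ∧
      (∀ P, Da P = P.ord (toBar A N ha)) ∧ (∀ P, Db P = P.ord (toBar A N hb)) ∧
      E = Da - Db := by
  induction hE using AddSubgroup.closure_induction with
  | mem E hE =>
    obtain ⟨y, hy, hyk, hne, hDy⟩ := hE
    refine ⟨y, 1, hy, h24_isInt_one A N, E, 0, hyk, hne, ?_, ?_, hDy, ?_, by simp⟩
    · rw [h24_red_one]; exact one_mem _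
    · rw [h24_red_one]; exact one_ne_zero
    · intro P
      rw [h24_toBar_one]; simp
  | zero =>
    refine ⟨1, 1, h24_isInt_one A N, h24_isInt_one A N, 0, 0, ?_, ?_, ?_, ?_, ?_, ?_, by simp⟩
    · rw [h24_red_one]; exact one_mem _
    · rw [h24_red_one]; exact one_ne_zero
    · rw [h24_red_one]; exact one_mem _
    · rw [h24_red_one]; exact one_ne_zero
    · intro P; rw [h24_toBar_one]; simp
    · intro P; rw [h24_toBar_one]; simp
  | add E E' _ _ hE hE' =>
    obtain ⟨a, b, ha, hb, Da, Db, hak, hane, hbk, hbne, hDa, hDb, rfl⟩ := hE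
    obtain ⟨a', b', ha', hb', Da', Db', hak', hane', hbk', hbne', hDa', hDb', rfl⟩ := hE'
    refine ⟨a * a', b * b', h24_isInt_mul A N ha ha', h24_isInt_mul A N hb hb',
      Da + Da', Db + Db', ?_, ?_, ?_, ?_, ?_, ?_, by abel⟩
    · rw [h24_red_mul]; exact mul_mem hak hak'
    · rw [h24_red_mul]; exact mul_ne_zero hane hane'
    · rw [h24_red_mul]; exact mul_mem hbk hbk'
    · rw [h24_red_mul]; exact mul_ne_zero hbne hbne'
    · intro P
      rw [h24_toBar_mul A N ha ha', P.ord_mul (h24_toBar_ne_zero A N ha hane)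
        (h24_toBar_ne_zero A N ha' hane'), Finsupp.add_apply, hDa, hDa']
    · intro P
      rw [h24_toBar_mul A N hb hb', P.ord_mul (h24_toBar_ne_zero A N hb hbne)
        (h24_toBar_ne_zero A N hb' hbne'), Finsupp.add_apply, hDb, hDb']
  | neg E _ hE =>
    obtain ⟨a, b, ha, hb, Da, Db, hak, hane, hbk, hbne, hDa, hDb, rfl⟩ := hE
    exact ⟨b, a, hb, ha, Db, Da, hbk, hbne, hak, hane, hDb, hDa, by abel⟩


section Field

variable {k : Type*} [Field k]

/-- the field computation behind `red y = 1` -/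
theorem h24_field_calc (s C B B'' G G' : LaurentSeries k) (n : ℕ)
    (hsC : s * C = 1) (hB : B * B'' = 1) (hG : G * G' = 1) :
    s * (C * B * G ^ (n + 1)) * B ^ n * B'' ^ (n + 1) * G' ^ (n + 1) = 1 := by
  have h1 : s * (C * B * G ^ (n + 1)) * B ^ n * B'' ^ (n + 1) * G' ^ (n + 1) =
      (s * C) * (B * B'') ^ (n + 1) * (G * G') ^ (n + 1) := by ring
  rw [h1, hsC, hB, hG]; simp

end Field

/-- from (CONST): `red a = C (res c) * red b * gbar ^ m` for a unit `c` of `A`. -/
theorem h24_step_const [NeZero N] (ℓ : ℕ) [Fact ℓ.Prime] (hConst : StConst A N ℓ)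
    (hℓN : ¬ ℓ ∣ N) (hA : A.LiesOverPrime ℓ) (m : ℕ)
    (abar bbar gbar : modularFunctionFieldFullC (IsLocalRing.ResidueField A) N)
    (ha0 : abar ≠ 0) (hb0 : bbar ≠ 0) (hg0 : gbar ≠ 0)
    (hmap : ∀ Q : Place (IsLocalRing.ResidueField A)
      (modularFunctionFieldFullC (IsLocalRing.ResidueField A) N),
      (m : ℤ) * Q.ord gbar = Q.ord abar - Q.ord bbar) :
    ∃ c c' : A, c * c' = 1 ∧
      (abar : LaurentSeries (IsLocalRing.ResidueField A)) =
        HahnSeries.single (0 : ℤ) (IsLocalRing.residue A c) *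
          (bbar : LaurentSeries (IsLocalRing.ResidueField A)) *
          (gbar : LaurentSeries (IsLocalRing.ResidueField A)) ^ m := by
  have hgm0 : gbar ^ m ≠ 0 := pow_ne_zero m hg0
  have hx0 : abar * bbar⁻¹ * (gbar ^ m)⁻¹ ≠ 0 :=
    mul_ne_zero (mul_ne_zero ha0 (inv_ne_zero hb0)) (inv_ne_zero hgm0)
  obtain ⟨cbar, hcbar⟩ := hConst hℓN hA (abar * bbar⁻¹ * (gbar ^ m)⁻¹) hx0
    (fun Q => by
      rw [Q.ord_mul (mul_ne_zero ha0 (inv_ne_zero hb0)) (inv_ne_zero hgm0),
        Q.ord_mul ha0 (inv_ne_zero hb0), Q.ord_inv, Q.ord_inv, h24_ord_pow, hmap Q]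
      ring)
  have hcbar0 : cbar ≠ 0 := by
    rintro rfl
    rw [map_zero] at hcbar
    exact hx0 hcbar.symm
  obtain ⟨c, hc⟩ := IsLocalRing.residue_surjective cbar
  have hcu : IsUnit c := by
    by_contra hnu
    apply hcbar0
    rw [← hc]
    exact (IsLocalRing.residue_eq_zero_iff c).mpr ((IsLocalRing.mem_maximalIdeal c).mpr hnu)
  obtain ⟨cu, hcu'⟩ := hcu
  refine ⟨c, ((cu⁻¹ : Aˣ) : A), by rw [← hcu']; simp, ?_⟩
  have h1 : abar = algebraMap (IsLocalRing.ResidueField A)
      (modularFunctionFieldFullC (IsLocalRing.ResidueField A) N) cbar * bbar * gbar ^ m := by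
    rw [hcbar]
    field_simp
  have h2 := congrArg Subtype.val h1
  rw [hc]
  have h3 : (algebraMap (IsLocalRing.ResidueField A)
      (modularFunctionFieldFullC (IsLocalRing.ResidueField A) N) cbar :
        LaurentSeries (IsLocalRing.ResidueField A)) = HahnSeries.single (0 : ℤ) cbar :=
    algebraMap_laurentSeries_eq_single _ cbar
  rw [← h3]
  exact h2


section General2

variable {K F : Type*} [Field K] [Field F] [Algebra K F]

theorem h24_ord_prod (P : Place K F) (κ α β β2 η : F) (n : ℕ)
    (hκ : κ ≠ 0) (hα : α ≠ 0) (hβ : β ≠ 0) (hβ2 : β2 ≠ 0) (hη : η ≠ 0) (hκ0 : P.ord κ = 0) :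
    P.ord (κ * α * β ^ n * β2 ^ (n + 1) * η ^ (n + 1)) =
      P.ord α + n * P.ord β + ((n + 1 : ℕ) : ℤ) * P.ord β2 + ((n + 1 : ℕ) : ℤ) * P.ord η := by
  rw [P.ord_mul (mul_ne_zero (mul_ne_zero (mul_ne_zero hκ hα) (pow_ne_zero _ hβ))
      (pow_ne_zero _ hβ2)) (pow_ne_zero _ hη),
    P.ord_mul (mul_ne_zero (mul_ne_zero hκ hα) (pow_ne_zero _ hβ)) (pow_ne_zero _ hβ2),
    P.ord_mul (mul_ne_zero hκ hα) (pow_ne_zero _ hβ), P.ord_mul hκ hα, hκ0,
    h24_ord_pow, h24_ord_pow, h24_ord_pow]
  ring

end General2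

/-- the integral element `y = c' * a * b ^ n * b'' ^ (n + 1) * y0' ^ (n + 1)`. -/
theorem h24_step_y (n : ℕ) (a b b' b'' y0 y0' : LaurentSeries A) (c c' : A)
    (ha : IsInt A N a) (hb : IsInt A N b) (hb'' : IsInt A N b'')
    (hy0' : IsInt A N y0') (hcc : c * c' = 1) (hbb : b' * b'' = 1) (hyy : y0 * y0' = 1)
    (hredb' : red A b' = red A b)
    (hane : red A a ≠ 0) (hbne : red A b ≠ 0)
    (hred_a : red A a = HahnSeries.single (0 : ℤ) (IsLocalRing.residue A c) * red A b *
      (red A y0) ^ (n + 1)) :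
    ∃ (y : LaurentSeries A) (hy : IsInt A N y), red A y = 1 ∧
      ∀ P : Place (AlgebraicClosure ℚ) (modularFunctionFieldBar N),
        P.ord (toBar A N hy) = P.ord (toBar A N ha) + n * P.ord (toBar A N hb) +
          ((n + 1 : ℕ) : ℤ) * P.ord (toBar A N hb'') +
          ((n + 1 : ℕ) : ℤ) * P.ord (toBar A N hy0') := by
  have hI : IsInt A N (HahnSeries.single (0 : ℤ) c' * a * b ^ n * b'' ^ (n + 1) *
      y0' ^ (n + 1)) :=
    h24_isInt_mul A N (h24_isInt_mul A N (h24_isInt_mul A N
      (h24_isInt_mul A N (h24_isInt_single A N c') ha) (h24_isInt_pow A N hb n))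
      (h24_isInt_pow A N hb'' (n + 1))) (h24_isInt_pow A N hy0' (n + 1))
  refine ⟨_, hI, ?_, ?_⟩
  · -- reduction
    have e1 : red A (HahnSeries.single (0 : ℤ) c' * a * b ^ n * b'' ^ (n + 1) *
        y0' ^ (n + 1)) = red A (HahnSeries.single (0 : ℤ) c') * red A a * red A b ^ n *
        red A b'' ^ (n + 1) * red A y0' ^ (n + 1) := by
      simp only [h24_red_mul, h24_red_pow]
    rw [e1, hred_a]
    have hsC : red A (HahnSeries.single (0 : ℤ) c') *
        HahnSeries.single (0 : ℤ) (IsLocalRing.residue A c) = 1 := by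
      unfold red
      rw [coeffMap_single, ← HahnSeries.C_apply, ← HahnSeries.C_apply, ← map_mul, ← map_mul,
        mul_comm c' c, hcc, map_one, map_one]
    have hB : red A b * red A b'' = 1 := by
      rw [← hredb', ← h24_red_mul, hbb, h24_red_one]
    have hG : red A y0 * red A y0' = 1 := by
      rw [← h24_red_mul, hyy, h24_red_one]
    exact h24_field_calc _ _ _ _ _ _ n hsC hB hG
  · intro P
    have hc'0 : (c' : AlgebraicClosure ℚ) ≠ 0 := by
      intro h0
      have : c' = 0 := Subtype.ext h0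
      rw [this, mul_zero] at hcc
      exact zero_ne_one hcc
    have hb''ne : red A b'' ≠ 0 := by
      intro h0
      have hB : red A b' * red A b'' = 1 := by rw [← h24_red_mul, hbb, h24_red_one]
      rw [h0, mul_zero] at hB
      exact zero_ne_one hB
    have hy0'ne : red A y0' ≠ 0 := by
      intro h0
      have hG : red A y0 * red A y0' = 1 := by rw [← h24_red_mul, hyy, h24_red_one]
      rw [h0, mul_zero] at hG
      exact zero_ne_one hG
    have e2 : toBar A N hI = toBar A N (h24_isInt_single A N c') * toBar A N ha *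
        toBar A N hb ^ n * toBar A N hb'' ^ (n + 1) * toBar A N hy0' ^ (n + 1) := by
      apply Subtype.ext
      show coeffMap A.subtype _ = _
      simp only [map_mul, map_pow]
      rfl
    rw [e2]
    refine h24_ord_prod P _ _ _ _ _ n ?_ (h24_toBar_ne_zero A N ha hane)
      (h24_toBar_ne_zero A N hb hbne) (h24_toBar_ne_zero A N hb'' hb''ne)
      (h24_toBar_ne_zero A N hy0' hy0'ne) ?_
    · rw [h24_toBar_single]
      exact fun h0 => hc'0 ((map_eq_zero _).mp h0)
    · rw [h24_toBar_single]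
      exact h24_ord_algebraMap P _ hc'0


/-- **(E), core**: for ANY place reduction `r` (with `IsPlaceReductionAlong` and
`PrincipalGeneratedByIntegral`), a degree zero divisor `D` with `m D` principal and `r_* D`
principal is principal. -/
theorem h24_core [NeZero N] (ℓ : ℕ) [Fact ℓ.Prime]
    (hKum : StKum A N ℓ) (hLift : StLift A N ℓ) (hConst : StConst A N ℓ)
    (hℓN : ¬ ℓ ∣ N) (hA : A.LiesOverPrime ℓ)
    (r : Place (AlgebraicClosure ℚ) (modularFunctionFieldBar N) →
      Place (IsLocalRing.ResidueField A) (modularFunctionFieldFullC (IsLocalRing.ResidueField A) N))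
    (hr : IsPlaceReductionAlong A (IsLocalRing.residue A) N r)
    (hgen : PrincipalGeneratedByIntegral A (IsLocalRing.residue A) N)
    (m : ℕ) (hm : ¬ ℓ ∣ m)
    (D : Divisor (AlgebraicClosure ℚ) (modularFunctionFieldBar N))
    (hmD : m • D ∈
      Divisor.principal (K := AlgebraicClosure ℚ) (F := modularFunctionFieldBar N))
    (hrD : Finsupp.mapDomain r D ∈
      Divisor.principal (K := IsLocalRing.ResidueField A)
        (F := modularFunctionFieldFullC (IsLocalRing.ResidueField A) N)) :
    D ∈ Divisor.principal (K := AlgebraicClosure ℚ) (F := modularFunctionFieldBar N) := by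
  have h : ModularCurve.ReductionInputsModL A N := ⟨r, hr, hgen⟩
  have hm0 : m ≠ 0 := fun h0 => hm (h0 ▸ dvd_zero ℓ)
  obtain ⟨gbar, hg0, hgD⟩ := hrD
  obtain ⟨a, b, ha, hb, Da, Db, hak, hane, hbk, hbne, hDa, hDb, hEq⟩ :=
    h24_closure_good A N _ (hgen hmD)
  have hmap : ∀ Q : Place (IsLocalRing.ResidueField A)
      (modularFunctionFieldFullC (IsLocalRing.ResidueField A) N), (m : ℤ) * Q.ord gbar =
      Q.ord (⟨red A a, hak⟩ : modularFunctionFieldFullC (IsLocalRing.ResidueField A) N) -
      Q.ord (⟨red A b, hbk⟩ : modularFunctionFieldFullC (IsLocalRing.ResidueField A) N) := by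
    intro Q
    have h1 : Finsupp.mapDomain r (m • D) = Finsupp.mapDomain r (Da - Db) := by rw [hEq]
    rw [Finsupp.mapDomain_smul, Finsupp.mapDomain_sub] at h1
    have h2 := congrArg (fun E => E Q) h1
    simp only [Finsupp.smul_apply, Finsupp.sub_apply, nsmul_eq_mul] at h2
    rw [hgD Q, hr.2 a ha hak hane Da hDa Q, hr.2 b hb hbk hbne Db hDb Q] at h2
    exact h2
  obtain ⟨c, c', hcc, hred_a⟩ := h24_step_const A N ℓ hConst hℓN hA m
    ⟨red A a, hak⟩ ⟨red A b, hbk⟩ gbar (fun h0 => hane (congrArg Subtype.val h0))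
    (fun h0 => hbne (congrArg Subtype.val h0)) hg0 hmap
  obtain ⟨b', b'', hb', hb'', hbb, hredb'⟩ := hLift hℓN hA (red A b) hbk hbne
  obtain ⟨y0, y0', hy0, hy0', hyy, hredy0⟩ :=
    hLift hℓN hA (gbar : LaurentSeries (IsLocalRing.ResidueField A)) gbar.2
      (fun h0 => hg0 (Subtype.ext h0))
  obtain ⟨n, rfl⟩ := Nat.exists_eq_succ_of_ne_zero hm0
  obtain ⟨y, hy, hredy, hordy⟩ := h24_step_y A N n a b b' b'' y0 y0' c c' ha hb hb'' hy0'
    hcc hbb hyy hredb' hane hbne (by rw [hredy0]; exact hred_a)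
  -- `(n + 1) * D P = ord a - ord b`
  have hDP : ∀ P : Place (AlgebraicClosure ℚ) (modularFunctionFieldBar N),
      ((n + 1 : ℕ) : ℤ) * D P = P.ord (toBar A N ha) - P.ord (toBar A N hb) := by
    intro P
    have h2 := congrArg (fun E => E P) hEq
    simp only [Finsupp.smul_apply, Finsupp.sub_apply, nsmul_eq_mul] at h2
    rw [hDa P, hDb P] at h2
    exact h2
  have hordy' : ∀ P : Place (AlgebraicClosure ℚ) (modularFunctionFieldBar N),
      P.ord (toBar A N hy) = ((n + 1 : ℕ) : ℤ) *
        (D P + P.ord (toBar A N hb) + P.ord (toBar A N hb'') + P.ord (toBar A N hy0')) := by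
    intro P
    rw [hordy P]
    have := hDP P
    push_cast at this ⊢
    linear_combination -this
  obtain ⟨u, hu0, hu⟩ := hKum hℓN hA h (n + 1) hm y hy hredy
    (fun P => ⟨_, hordy' P⟩)
  -- `D` is principal
  have hb''ne : toBar A N hb'' ≠ 0 := by
    apply h24_toBar_ne_zero
    intro h0
    have hB : red A b' * red A b'' = 1 := by rw [← h24_red_mul, hbb, h24_red_one]
    rw [h0, mul_zero] at hB
    exact zero_ne_one hB
  have hy0'ne : toBar A N hy0' ≠ 0 := by
    apply h24_toBar_ne_zero
    intro h0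
    have hG : red A y0 * red A y0' = 1 := by rw [← h24_red_mul, hyy, h24_red_one]
    rw [h0, mul_zero] at hG
    exact zero_ne_one hG
  have hbne' : toBar A N hb ≠ 0 := h24_toBar_ne_zero A N hb hbne
  refine ⟨u * (toBar A N hb * toBar A N hb'' * toBar A N hy0')⁻¹,
    mul_ne_zero hu0 (inv_ne_zero (mul_ne_zero (mul_ne_zero hbne' hb''ne) hy0'ne)), ?_⟩
  intro P
  rw [P.ord_mul hu0 (inv_ne_zero (mul_ne_zero (mul_ne_zero hbne' hb''ne) hy0'ne)),
    P.ord_inv, P.ord_mul (mul_ne_zero hbne' hb''ne) hy0'ne, P.ord_mul hbne' hb''ne]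
  have h1 := hordy' P
  rw [hu P] at h1
  have h2 : ((n + 1 : ℕ) : ℤ) ≠ 0 := by exact_mod_cast Nat.succ_ne_zero n
  have h3 := mul_left_cancel₀ h2 h1
  rw [h3]; ring

/-- **(E) for an arbitrary place reduction `r`** (the shape asked for by S37): the reduction
`reductionPic0Along r hr hgen` is injective on the `m`-torsion, `ℓ ∤ m`. -/
theorem h24_inj_of_reduction [NeZero N] (ℓ : ℕ) [Fact ℓ.Prime]
    (hKum : StKum A N ℓ) (hLift : StLift A N ℓ) (hConst : StConst A N ℓ)
    (hℓN : ¬ ℓ ∣ N) (hA : A.LiesOverPrime ℓ)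
    (r : Place (AlgebraicClosure ℚ) (modularFunctionFieldBar N) →
      Place (IsLocalRing.ResidueField A) (modularFunctionFieldFullC (IsLocalRing.ResidueField A) N))
    (hr : IsPlaceReductionAlong A (IsLocalRing.residue A) N r)
    (hgen : PrincipalGeneratedByIntegral A (IsLocalRing.residue A) N)
    (m : ℕ) (hm : ¬ ℓ ∣ m) (z : ModularCurve.JZero N) (hmz : m • z = 0)
    (hz : reductionPic0Along r hr hgen z = 0) : z = 0 := by
  obtain ⟨D, rfl⟩ := Pic0.mk_surjective z
  have hmD : (m • (D : Divisor (AlgebraicClosure ℚ) (modularFunctionFieldBar N))) ∈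
      Divisor.principal (K := AlgebraicClosure ℚ) (F := modularFunctionFieldBar N) := by
    have h1 : Pic0.mk (m • D) = 0 := by
      rw [← hmz]; rfl
    have h2 := (QuotientAddGroup.eq_zero_iff (m • D)).mp h1
    rw [AddSubgroup.mem_addSubgroupOf] at h2
    simpa using h2
  have hrD : Finsupp.mapDomain r
      (D : Divisor (AlgebraicClosure ℚ) (modularFunctionFieldBar N)) ∈
      Divisor.principal (K := IsLocalRing.ResidueField A)
        (F := modularFunctionFieldFullC (IsLocalRing.ResidueField A) N) := by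
    rw [reductionPic0Along_mk] at hz
    have h2 := (QuotientAddGroup.eq_zero_iff _).mp hz
    rw [AddSubgroup.mem_addSubgroupOf] at h2
    simpa using h2
  have hprin := h24_core A N ℓ hKum hLift hConst hℓN hA r hr hgen m hm _ hmD hrD
  exact (QuotientAddGroup.eq_zero_iff D).mpr (by
    rw [AddSubgroup.mem_addSubgroupOf]; exact hprin)

/-- **(E) + wiring**: the frozen S18 statement from the three leaves. -/
theorem stTop [NeZero N] (ℓ : ℕ) [Fact ℓ.Prime] : StTop A N ℓ := by
  intro hKum hLift hConst hℓN hA h m hm z hmz hz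
  refine h24_inj_of_reduction A N ℓ hKum hLift hConst hℓN hA (placeReductionModL h)
    (isPlaceReductionModL_placeReductionModL h) h.choose_spec.2 m hm z hmz ?_
  have h1 : reductionModL A N = reductionPic0Along (placeReductionModL h)
      (isPlaceReductionModL_placeReductionModL h) h.choose_spec.2 := reductionAlong_eq h
  rw [← h1]
  exact hz

/-- **S18 from the three leaves**, in the shape of the frozen statement. -/
theorem result_of (N : ℕ) [NeZero N] {ℓ : ℕ} [Fact ℓ.Prime] (hℓN : ¬ ℓ ∣ N)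
    (A : ValuationSubring (AlgebraicClosure ℚ)) (hA : A.LiesOverPrime ℓ)
    (hKum : StKum A N ℓ) (hLift : StLift A N ℓ) (hConst : StConst A N ℓ)
    (h : ModularCurve.ReductionInputsModL A N) (m : ℕ) (hm : ¬ ℓ ∣ m) (z : ModularCurve.JZero N)
    (hmz : m • z = 0) (hz : ModularCurve.reductionModL A N z = 0) :
    z = 0 :=
  stTop A N ℓ hKum hLift hConst hℓN hA h m hm z hmz hz

end Fermat.Agent.S18x.Asm.H24
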