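import Fermat.Agent.S18x.Asm.Defs
import Fermat.Agent.S18x.Asm.H24_Top
import Fermat.Agent.S18x.E.H12_LiftFinal

/-!
# S18: adapters between the official interfaces (`Asm/Defs`, helper18) and the spare route
(`Asm/H24_Defs`), and step [E] for an ARBITRARY place reduction from the official leaves (helper24)

* `h24_stConst_of`  : `Asm.StConst A N → H24.StConst A N ℓ`;
* `h24_stLift`      : `H24.StLift A N ℓ` (from helper12's `stLift`, `stLiftUnit`);
* `h24_stKum_of`    : `Asm.StKummer A N ℓ → Asm.StDiv N → H24.StKum A N ℓ`;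
* `h24_inj_of_leaves` : for ANY `r` with `IsPlaceReductionAlong` and `PrincipalGeneratedByIntegral`,
  the reduction `reductionPic0Along r hr hgen` is injective on the `m`-torsion (`ℓ ∤ m`), from the
  official leaves `Asm.StKummer`, `Asm.StDiv`, `Asm.StConst` (the shape needed by S37).
-/

set_option autoImplicit false
set_option synthInstance.maxHeartbeats 400000

open ModularCurve AlgebraicCurve HahnSeries

noncomputable section

namespace Fermat.Agent.S18x.Asm.H24

variable (A : ValuationSubring (AlgebraicClosure ℚ)) (N : ℕ) [NeZero N] (ℓ : ℕ) [Fact ℓ.Prime]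

theorem h24_stConst_of (h : Fermat.Agent.S18x.Asm.StConst A N) : StConst A N ℓ :=
  fun _ _ x hx hord => h x hx hord

theorem h24_stLift : StLift A N ℓ := by
  intro _ _ g hg hg0
  obtain ⟨y0, hy0, hred0⟩ := Fermat.Agent.S18x.E.H12.stLift A N g hg hg0
  obtain ⟨b', b'', hb', hb'', hred, hbb⟩ :=
    Fermat.Agent.S18x.E.H12.stLiftUnit A N y0 hy0 (by rw [hred0]; exact hg0)
  exact ⟨b', b'', hb', hb'', hbb, hred.trans hred0⟩

theorem h24_stKum_of (hK : Fermat.Agent.S18x.Asm.StKummer A N ℓ)
    (hD : Fermat.Agent.S18x.Asm.StDiv N) : StKum A N ℓ := by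
  intro _ _ _ m hm y hy hred hdvd
  have hm0 : (m : ℤ) ≠ 0 := by
    intro h0
    apply hm
    have : m = 0 := by exact_mod_cast h0
    rw [this]; exact dvd_zero ℓ
  have hy0 : toBar A N hy ≠ 0 := h24_toBar_ne_zero A N hy (by rw [hred]; exact one_ne_zero)
  obtain ⟨Dy, hDy⟩ := hD (toBar A N hy) hy0
  -- the divisor `Dy / m`
  let D : Divisor (AlgebraicClosure ℚ) (modularFunctionFieldBar N) :=
    Finsupp.mapRange (fun n : ℤ => n / (m : ℤ)) (by simp) Dy
  have hDm : ∀ P : Place (AlgebraicClosure ℚ) (modularFunctionFieldBar N),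
      (m : ℤ) * D P = P.ord (toBar A N hy) := by
    intro P
    show (m : ℤ) * (Finsupp.mapRange (fun n : ℤ => n / (m : ℤ)) (by simp) Dy) P = _
    rw [Finsupp.mapRange_apply, hDy P]
    exact Int.mul_ediv_cancel' (hdvd P)
  have h1 : IsInt A N (1 : LaurentSeries A) := h24_isInt_one A N
  have hprin : Divisor.IsPrincipal D := by
    refine hK m hm y 1 hy h1 ?_ ?_ ?_ D ?_
    · show red A y ∈ _
      rw [hred]; exact one_mem _
    · show red A y = red A 1
      rw [hred, h24_red_one]
    · show red A y ≠ 0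
      rw [hred]; exact one_ne_zero
    · intro P
      have e1 : (⟨coeffMap A.subtype (1 : LaurentSeries A), h1⟩ : modularFunctionFieldBar N) = 1 :=
        Subtype.ext (map_one _)
      rw [e1, Place.ord_one, sub_zero]
      exact hDm P
  obtain ⟨u, hu0, hu⟩ := hprin
  exact ⟨u, hu0, fun P => by rw [← hDm P, hu P]⟩

/-- **Step [E] for an arbitrary place reduction, from the official leaves.** -/
theorem h24_inj_of_leaves (hK : Fermat.Agent.S18x.Asm.StKummer A N ℓ)
    (hD : Fermat.Agent.S18x.Asm.StDiv N) (hC : Fermat.Agent.S18x.Asm.StConst A N)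
    (hℓN : ¬ ℓ ∣ N) (hA : A.LiesOverPrime ℓ)
    (r : Place (AlgebraicClosure ℚ) (modularFunctionFieldBar N) →
      Place (IsLocalRing.ResidueField A) (modularFunctionFieldFullC (IsLocalRing.ResidueField A) N))
    (hr : IsPlaceReductionAlong A (IsLocalRing.residue A) N r)
    (hgen : PrincipalGeneratedByIntegral A (IsLocalRing.residue A) N)
    (m : ℕ) (hm : ¬ ℓ ∣ m) (z : ModularCurve.JZero N) (hmz : m • z = 0)
    (hz : reductionPic0Along r hr hgen z = 0) : z = 0 :=
  h24_inj_of_reduction A N ℓ (h24_stKum_of A N ℓ hK hD) (h24_stLift A N ℓ)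
    (h24_stConst_of A N ℓ hC) hℓN hA r hr hgen m hm z hmz hz

end Fermat.Agent.S18x.Asm.H24
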