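import Mathlib
import Fermat.Prelude.Def_ModularCurve_ReductionModL
import Fermat.Prelude.Def_EllipticCurve_FrobeniusTrace

/-!
# S18: the interfaces of the SPARE route of step [E] (helper24); the official interfaces are
`Fermat/Agent/S18x/Asm/Defs.lean` (helper18)

Blueprint: findings #163 (helper18).  Frozen statement, for `ℓ ∤ N`, `A` a valuation subring of
`ℚ̄` over `ℓ`, `h : ReductionInputsModL A N`, `ℓ ∤ m`:

  `m • z = 0 → reductionModL A N z = 0 → z = 0`    (`z : JZero N`).

Vocabulary: `Fbar := modularFunctionFieldBar N ⊆ ℚ̄((q))`, `k := ResidueField A`,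
`Fk := modularFunctionFieldFullC k N ⊆ k((q))`, `red := coeffMap (residue A)`,
`y : A((q))` is *integral* if `coeffMap A.subtype y ∈ Fbar`.

* `StKum`   (KUM)  : an integral `y` with `red y = 1` whose divisor is divisible by `m` has the
                     divisor of an `m`-th power (the target of [SPEC] + [IGUSA+]);
* `StLift`  (LIFT) : every nonzero element of `Fk` is `red y` for an integral `y` which has an
                     integral inverse;
* `StConst` (CONST): an element of `Fk` with trivial divisor is a constant.

`result_of` (in `Asm/H24_Top.lean`): `StKum → StLift → StConst →` the frozen statement.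
-/

set_option autoImplicit false
set_option synthInstance.maxHeartbeats 400000

open ModularCurve AlgebraicCurve HahnSeries

noncomputable section

namespace Fermat.Agent.S18x.Asm.H24

section Vocabulary

variable (A : ValuationSubring (AlgebraicClosure ℚ)) (N : ℕ)

/-- `y : A((q))` is integral: its image in `ℚ̄((q))` is a modular function of level `N`. -/
def IsInt (y : LaurentSeries A) : Prop :=
  coeffMap A.subtype y ∈ modularFunctionFieldBar N

/-- The modular function attached to an integral `y`. -/
def toBar {y : LaurentSeries A} (hy : IsInt A N y) : modularFunctionFieldBar N :=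
  ⟨coeffMap A.subtype y, hy⟩

/-- The reduction of `y : A((q))` modulo the maximal ideal of `A`. -/
def red (y : LaurentSeries A) : LaurentSeries (IsLocalRing.ResidueField A) :=
  coeffMap (IsLocalRing.residue A) y

end Vocabulary

section Leaves

variable (A : ValuationSubring (AlgebraicClosure ℚ)) (N : ℕ) [NeZero N] (ℓ : ℕ) [Fact ℓ.Prime]

/-- **(KUM)** the Kummer criterion: an integral `y ≡ 1` whose divisor is divisible by `m`
(`ℓ ∤ m`) has the divisor of an `m`-th power. -/
def StKum : Prop :=
  ¬ ℓ ∣ N → A.LiesOverPrime ℓ → ModularCurve.ReductionInputsModL A N →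
    ∀ m : ℕ, ¬ ℓ ∣ m → ∀ (y : LaurentSeries A) (hy : IsInt A N y), red A y = 1 →
      (∀ P : Place (AlgebraicClosure ℚ) (modularFunctionFieldBar N),
        (m : ℤ) ∣ P.ord (toBar A N hy)) →
      ∃ u : modularFunctionFieldBar N, u ≠ 0 ∧
        ∀ P : Place (AlgebraicClosure ℚ) (modularFunctionFieldBar N),
          P.ord (toBar A N hy) = (m : ℤ) * P.ord u

/-- **(LIFT)** every nonzero element of `Fk` is the reduction of an integral `y` which has an
integral inverse. -/
def StLift : Prop :=
  ¬ ℓ ∣ N → A.LiesOverPrime ℓ →
    ∀ g : LaurentSeries (IsLocalRing.ResidueField A),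
      g ∈ modularFunctionFieldFullC (IsLocalRing.ResidueField A) N → g ≠ 0 →
      ∃ y y' : LaurentSeries A, IsInt A N y ∧ IsInt A N y' ∧ y * y' = 1 ∧ red A y = g

/-- **(CONST)** an element of `Fk` with trivial divisor is a constant. -/
def StConst : Prop :=
  ¬ ℓ ∣ N → A.LiesOverPrime ℓ →
    ∀ x : modularFunctionFieldFullC (IsLocalRing.ResidueField A) N, x ≠ 0 →
      (∀ Q : Place (IsLocalRing.ResidueField A)
          (modularFunctionFieldFullC (IsLocalRing.ResidueField A) N), Q.ord x = 0) →
      ∃ c : IsLocalRing.ResidueField A,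
        algebraMap (IsLocalRing.ResidueField A)
          (modularFunctionFieldFullC (IsLocalRing.ResidueField A) N) c = x

/-- **The wiring of the top level** (ASM + [E]). -/
def StTop : Prop :=
  StKum A N ℓ → StLift A N ℓ → StConst A N ℓ →
    ¬ ℓ ∣ N → A.LiesOverPrime ℓ → ModularCurve.ReductionInputsModL A N →
      ∀ m : ℕ, ¬ ℓ ∣ m → ∀ z : ModularCurve.JZero N, m • z = 0 →
        ModularCurve.reductionModL A N z = 0 → z = 0

end Leaves

end Fermat.Agent.S18x.Asm.H24
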