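import Fermat.Agent.S18x.Asm.H26_IgFinal
import Fermat.Agent.S18x.IG.H10_SatInst

/-!
# S18 / [IG-FINAL] (helper26): `H7IG A M K` from (HSM-INST) alone

(SAT-INST) (helper10, `IG/H10_SatInst`) is plugged into `ig_final_of`: the only remaining
hypothesis of `ig_final_of_hsm` is (SM) on the two charts of the Hauptmodul of level
`p0 ∈ {2, 3}`, `H26Hsm`.
-/

set_option autoImplicit false
set_option linter.unusedSectionVars false
set_option linter.style.haveILetI false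
set_option synthInstance.maxHeartbeats 400000
set_option maxHeartbeats 1000000

noncomputable section

namespace Fermat.Agent.S18x.Asm

open AlgebraicCurve ModularCurve IntermediateField Polynomial
open Fermat.Agent.S18x.Dict.H20 Fermat.Agent.S18x.Dict.H7
open Fermat.Agent.S18x.Spec.H26

local notation "Lbar" => AlgebraicClosure ℚ

variable (A : ValuationSubring Lbar) {ℓ : ℕ} (hℓ : ℓ.Prime) (hA : A.LiesOverPrime ℓ)
  (M : ℕ) [NeZero M] (hℓM : ¬ ℓ ∣ M) (K : IntermediateField ℚ Lbar)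
  [IsDiscreteValuationRing (A.comap (algebraMap ↥K Lbar))]

include hℓ hA hℓM in
/-- **(SAT-INST) at level `2`** in the spelling of `ig_final_of`. -/
theorem ig_sat_two (hM : 2 ∣ M) (π₀ : A.comap (algebraMap ↥K Lbar)) (hπ₀ : Irreducible π₀) :
    H26Sat A M K (Fermat.Agent.S18x.IG.H28.coord2 ↥K M hM)
      (Fermat.Agent.S18x.IG.H28.coord2 ↥K M hM)⁻¹ π₀ := by
  haveI : Fact ℓ.Prime := ⟨hℓ⟩
  haveI : CharP (IsLocalRing.ResidueField (A.comap (algebraMap ↥K Lbar))) ℓ :=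
    Fermat.Agent.S18x.Dict.H23.h23_charP_residueField A hℓ hA
  exact Fermat.Agent.S18x.IG.H10.h10_sat_coord2 (A.comap (algebraMap ↥K Lbar)) M hM π₀ hπ₀ ℓ hℓM

include hℓ hA hℓM in
/-- **(SAT-INST) at level `3`** in the spelling of `ig_final_of`. -/
theorem ig_sat_three (hM : 3 ∣ M) (π₀ : A.comap (algebraMap ↥K Lbar)) (hπ₀ : Irreducible π₀) :
    H26Sat A M K (Fermat.Agent.S18x.IG.H28.coord3 ↥K M hM)
      (Fermat.Agent.S18x.IG.H28.coord3 ↥K M hM)⁻¹ π₀ := by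
  haveI : Fact ℓ.Prime := ⟨hℓ⟩
  haveI : CharP (IsLocalRing.ResidueField (A.comap (algebraMap ↥K Lbar))) ℓ :=
    Fermat.Agent.S18x.Dict.H23.h23_charP_residueField A hℓ hA
  exact Fermat.Agent.S18x.IG.H10.h10_sat_coord3 (A.comap (algebraMap ↥K Lbar)) M hM π₀ hπ₀ ℓ hℓM

include hℓ hA hℓM in
/-- **[IG-FINAL] with (HSM-INST) as the only hypothesis**: `H7IG A M K` at every level `M`
divisible by `p0 ∈ {2, 3}`, `ℓ ∤ M`, from (SM) on the two charts of the Hauptmodul of level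
`p0`. -/
theorem ig_final_of_hsm (p0 : ℕ) (hp0 : p0 = 2 ∨ p0 = 3) (hp0M : p0 ∣ M)
    (h2 : ∀ hM : 2 ∣ M, p0 = 2 → ∀ π₀ : A.comap (algebraMap ↥K Lbar), Irreducible π₀ →
      H26Hsm A M K (Fermat.Agent.S18x.IG.H28.coord2 ↥K M hM)
        (Fermat.Agent.S18x.IG.H28.coord2 ↥K M hM)⁻¹ π₀)
    (h3 : ∀ hM : 3 ∣ M, p0 = 3 → ∀ π₀ : A.comap (algebraMap ↥K Lbar), Irreducible π₀ →
      H26Hsm A M K (Fermat.Agent.S18x.IG.H28.coord3 ↥K M hM)
        (Fermat.Agent.S18x.IG.H28.coord3 ↥K M hM)⁻¹ π₀) :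
    H7IG A M K :=
  ig_final_of A M K p0 hp0 hp0M
    (fun hM h π₀ hπ₀ => ⟨ig_sat_two A hℓ hA M hℓM K hM π₀ hπ₀, h2 hM h π₀ hπ₀⟩)
    (fun hM h π₀ hπ₀ => ⟨ig_sat_three A hℓ hA M hℓM K hM π₀ hπ₀, h3 hM h π₀ hπ₀⟩)

end Fermat.Agent.S18x.Asm
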