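import Fermat.Agent.S18x.Asm.H26_IgFinalSat
import Fermat.Agent.S18x.Asm.H18_Final
import Fermat.Agent.S18x.IG.H24_HsmInst
import Fermat.Agent.S18x.IG.H5_HorInst

/-!
# S18 / [IG-FINAL] (helper26): `H7IG A M K`, hypothesis-free, and the frozen statement S18

* `ig_hsm_two`, `ig_hsm_three` : (HSM-INST) `H26Hsm` for the Hauptmoduln of level `2`, `3`
  (helper24's `h24_hSM_two` / `h24_hSM_three` fed with helper10's (SAT-INST) and helper5's
  (HOR-INST));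
* `ig_final` : `Dict.H7.H7IG A M K` for every level `M` divisible by `p0 ∈ {2, 3}`, `ℓ ≠ p0`,
  `ℓ ∤ M`, and every number field `K` inside `ℚ̄`;
* `s18_final` : the frozen statement S18 (from the chief's `final_of_ig` at `M = p0 * N`).
-/

set_option autoImplicit false
set_option linter.unusedSectionVars false
set_option linter.style.haveILetI false
set_option synthInstance.maxHeartbeats 400000
set_option maxHeartbeats 1000000

noncomputable section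

namespace Fermat.Agent.S18x.Asm

open AlgebraicCurve ModularCurve IntermediateField Polynomial
open Fermat.Agent.S18x.Dict.H20 Fermat.Agent.S18x.Dict.H7
open Fermat.Agent.S18x.Spec.H26

local notation "Lbar" => AlgebraicClosure ℚ

section Hsm

variable (A : ValuationSubring Lbar) {ℓ : ℕ} (hℓ : ℓ.Prime) (hA : A.LiesOverPrime ℓ)
  (M : ℕ) [NeZero M] (hℓM : ¬ ℓ ∣ M) (K : IntermediateField ℚ Lbar) [FiniteDimensional ℚ K]
  [IsDiscreteValuationRing (A.comap (algebraMap ↥K Lbar))]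

include hℓ hA hℓM in
/-- **(HSM-INST), level `2`**, hypothesis-free. -/
theorem ig_hsm_two (hM : 2 ∣ M) (hℓ2 : ℓ ≠ 2)
    (π₀ : A.comap (algebraMap ↥K Lbar)) (hπ₀ : Irreducible π₀) :
    H26Hsm A M K (Fermat.Agent.S18x.IG.H28.coord2 ↥K M hM)
      (Fermat.Agent.S18x.IG.H28.coord2 ↥K M hM)⁻¹ π₀ := by
  haveI := Fermat.Agent.S18x.Dict.H22.isIntegral_intermediate K
  haveI : IsScalarTower (A.comap (algebraMap ↥K Lbar)) ↥K ↥(modularFunctionFieldFullC ↥K M) :=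
    IsScalarTower.of_algebraMap_eq (fun c => rfl)
  obtain ⟨hs1, hs2, -⟩ := ig_sat_two A hℓ hA M hℓM K hM π₀ hπ₀
  refine Fermat.Agent.S18x.IG.h24_hSM_two A hℓ hA M K hM hℓ2 π₀ hπ₀ hs1 hs2
    (Fermat.Agent.S18x.IG.H5.h5_hred_two (A.comap (algebraMap ↥K Lbar)) M hM π₀ hπ₀ _
      (Set.mem_insert _ _) (Set.mem_insert_of_mem _ (Set.mem_singleton _)))
    (Fermat.Agent.S18x.IG.H5.h5_hred_two_inv (A.comap (algebraMap ↥K Lbar)) M hM π₀ hπ₀ _
      (Set.mem_insert _ _) _ ?_ (Set.mem_insert_of_mem _ (Set.mem_singleton _)))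
  rw [mul_neg, Fermat.Agent.S18x.IG.H21.h21_mul_inv, neg_add_cancel]

include hℓ hA hℓM in
/-- **(HSM-INST), level `3`**, hypothesis-free. -/
theorem ig_hsm_three (hM : 3 ∣ M) (hℓ3 : ℓ ≠ 3)
    (π₀ : A.comap (algebraMap ↥K Lbar)) (hπ₀ : Irreducible π₀) :
    H26Hsm A M K (Fermat.Agent.S18x.IG.H28.coord3 ↥K M hM)
      (Fermat.Agent.S18x.IG.H28.coord3 ↥K M hM)⁻¹ π₀ := by
  haveI := Fermat.Agent.S18x.Dict.H22.isIntegral_intermediate K
  haveI : IsScalarTower (A.comap (algebraMap ↥K Lbar)) ↥K ↥(modularFunctionFieldFullC ↥K M) :=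
    IsScalarTower.of_algebraMap_eq (fun c => rfl)
  obtain ⟨hs1, hs2, -⟩ := ig_sat_three A hℓ hA M hℓM K hM π₀ hπ₀
  refine Fermat.Agent.S18x.IG.h24_hSM_three A hℓ hA M K hM hℓ3 π₀ hπ₀ hs1 hs2
    (Fermat.Agent.S18x.IG.H5.h5_hred_three (A.comap (algebraMap ↥K Lbar)) M hM π₀ hπ₀ _
      (Set.mem_insert _ _) (Set.mem_insert_of_mem _ (Set.mem_singleton _)))
    (Fermat.Agent.S18x.IG.H5.h5_hred_three_inv (A.comap (algebraMap ↥K Lbar)) M hM π₀ hπ₀ _
      (Set.mem_insert _ _) _ ?_ (Set.mem_insert_of_mem _ (Set.mem_singleton _)))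
  rw [mul_neg, Fermat.Agent.S18x.IG.H21.h21_mul_inv, neg_add_cancel]

include hℓ hA hℓM in
/-- **[IG-FINAL]**: the [IG] inputs `Dict.H7.H7IG A M K` of the Kummer statement, at every level
`M` divisible by `p0 ∈ {2, 3}` with `ℓ ≠ p0`, `ℓ ∤ M`, over every number field `K` inside `ℚ̄`.
Hypothesis-free. -/
theorem ig_final (p0 : ℕ) (hp0 : p0 = 2 ∨ p0 = 3) (hp0M : p0 ∣ M) (hℓp0 : ℓ ≠ p0) :
    H7IG A M K :=
  ig_final_of_hsm A hℓ hA M hℓM K p0 hp0 hp0M
    (fun hM h π₀ hπ₀ => ig_hsm_two A hℓ hA M hℓM K hM (h ▸ hℓp0) π₀ hπ₀)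
    (fun hM h π₀ hπ₀ => ig_hsm_three A hℓ hA M hℓM K hM (h ▸ hℓp0) π₀ hπ₀)

end Hsm

/-- **S18** (the frozen statement): for a prime `ℓ ∤ N` and a place `A` over `ℓ` carrying
reduction data for `X₀(N)`, a point of `J₀(N)` killed by some `m` prime to `ℓ` whose reduction
mod `ℓ` vanishes is zero. -/
theorem s18_final (N : ℕ) [NeZero N] {ℓ : ℕ}
    [Fact ℓ.Prime] (hℓN : ¬ ℓ ∣ N) (A : ValuationSubring (AlgebraicClosure ℚ))
    (hA : A.LiesOverPrime ℓ)
    (h : ModularCurve.ReductionInputsModL A N) (m : ℕ) (hm : ¬ ℓ ∣ m) (z : ModularCurve.JZero N)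
    (hmz : m • z = 0) (hz : ModularCurve.reductionModL A N z = 0) :
    z = 0 := by
  haveI := h18_level_neZero ℓ N
  have hℓM : ¬ ℓ ∣ h18_base ℓ * N := h18_not_dvd_level (Fact.out : ℓ.Prime) hℓN
  refine final_of_ig N hℓN A hA (h18_base ℓ * N) (Dvd.intro_left _ rfl) hℓM
    (fun K hK hDVR => ?_) h m hm z hmz hz
  haveI := hK
  haveI := hDVR
  exact ig_final A (Fact.out : ℓ.Prime) hA (h18_base ℓ * N) hℓM K (h18_base ℓ) (h18_base_mem ℓ)
    (Dvd.intro _ rfl) (h18_base_ne ℓ)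

end Fermat.Agent.S18x.Asm
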